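import Mathlib
import Fermat.Prelude.Def_FLTPrelim_GaloisRep
import Fermat.Agent.S13.DPF

set_option autoImplicit false
set_option linter.unusedVariables false
set_option linter.unusedSectionVars false

/-!
# S41, package NE, file Tors: `#E[p] = p²`

`K` algebraically closed of characteristic `0`, `W` a Weierstrass curve over `K` with `Δ ≠ 0`,
`p` an odd prime: the `p`-torsion of `W(K)` has exactly `p²` elements.

Route (on top of the division-polynomial layer `S13/DP*`): on the curve `ΨSqₙ(x) = ψₙ(P)²` and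
`Φₙ(x) = x ψₙ(P)² - ψₙ₊₁(P) ψₙ₋₁(P)`, so `x(pP) ΨSq_p(x) = Φ_p(x)` for `P` of order `> p`;
`Φ_p` and `ΨSq_p` have no common root; the Wronskian `Φ_p' ΨSq_p - Φ_p ΨSq_p'` has leading
coefficient `p²`; for a generic `a` the polynomial `Φ_p - a ΨSq_p` has `p²` simple roots, each the
`x`-coordinate of a point of the fibre `[p]⁻¹(Q₀)`, a coset of `E[p]`.
-/

namespace Fermat.Agent.S41

open WeierstrassCurve WeierstrassCurve.Affine Polynomial
open Fermat.Agent.S05 (xc yc)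
open Fermat.Agent.S13

section curve

variable {R : Type*} [CommRing R] {W : WeierstrassCurve R} {x y : R}

/-- on the curve `ΨSqₙ(x) = ψₙ(P)²` -/
theorem s41net_ΨSq_eval (h : W.toAffine.Equation x y) (n : ℤ) :
    (W.ΨSq n).eval x = dpv W x y n ^ 2 := by
  rcases Int.even_or_odd n with hn | hn
  · rw [dpe_dpv_of_even h hn, ΨSq, if_pos hn, eval_mul, eval_pow, dpe_Ψ₂Sq_eval h]
    ring
  · rw [dpv_eq_eval_preΨ_of_odd h hn, ΨSq, if_neg (Int.not_even_iff_odd.2 hn), mul_one, eval_pow]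

/-- on the curve `Φₙ(x) = x ψₙ(P)² - ψₙ₊₁(P) ψₙ₋₁(P)` -/
theorem s41net_Φ_eval (h : W.toAffine.Equation x y) (n : ℤ) :
    (W.Φ n).eval x = x * dpv W x y n ^ 2 - dpv W x y (n + 1) * dpv W x y (n - 1) := by
  rw [WeierstrassCurve.Φ, eval_sub, eval_mul, eval_X, s41net_ΨSq_eval h]
  rcases Int.even_or_odd n with hn | hn
  · have h1 : Odd (n + 1) := hn.add_one
    have h2 : Odd (n - 1) := hn.sub_odd odd_one
    rw [if_pos hn, mul_one, dpv_eq_eval_preΨ_of_odd h h1, dpv_eq_eval_preΨ_of_odd h h2, eval_mul]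
  · have h1 : Even (n + 1) := hn.add_one
    have h2 : Even (n - 1) := hn.sub_odd odd_one
    rw [if_neg (Int.not_even_iff_odd.2 hn), dpe_dpv_of_even h h1, dpe_dpv_of_even h h2, eval_mul,
      eval_mul, dpe_Ψ₂Sq_eval h]
    ring

end curve

section field

variable {K : Type*} [Field K] [DecidableEq K] {W : Affine K}

/-- **multiplication formula**: if `kP ≠ 0` for `1 ≤ k ≤ N` then `ΨSq_k(x) ≠ 0` and
`x(kP) ΨSq_k(x) = Φ_k(x)` for `1 ≤ k ≤ N`. -/
theorem s41net_mul_formula {x y : K} (h : W.Nonsingular x y) (N : ℕ)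
    (hN : ∀ k : ℕ, 1 ≤ k → k ≤ N → k • Point.some x y h ≠ 0) {k : ℕ} (hk1 : 1 ≤ k)
    (hkN : k ≤ N) :
    (W.ΨSq (k : ℤ)).eval x ≠ 0 ∧
      xc (k • Point.some x y h) * (W.ΨSq (k : ℤ)).eval x = (W.Φ (k : ℤ)).eval x := by
  obtain ⟨h1, -, h3, -⟩ := dpv_first_zero h N hN
  have hne : dpv W x y k ≠ 0 := h1 k hk1 hkN
  have e := h3 k hk1 hkN
  rw [eq_div_iff (pow_ne_zero 2 hne)] at e
  rw [s41net_ΨSq_eval h.1, s41net_Φ_eval h.1]
  refine ⟨pow_ne_zero 2 hne, ?_⟩
  linear_combination (-1 : K) * e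

/-- a point killed by some `1 ≤ k ≤ N` has its `x`-coordinate among the roots of some `ΨSq_r`,
`2 ≤ r ≤ N` -/
theorem s41net_exists_root_of_nsmul_eq_zero {x y : K} (h : W.Nonsingular x y) {N : ℕ}
    (hN : ∃ k : ℕ, 1 ≤ k ∧ k ≤ N ∧ k • Point.some x y h = 0) :
    ∃ r : ℕ, 2 ≤ r ∧ r ≤ N ∧ (W.ΨSq (r : ℤ)).eval x = 0 := by
  classical
  have hex : ∃ k : ℕ, 1 ≤ k ∧ k • Point.some x y h = 0 := by
    obtain ⟨k, hk1, -, hk0⟩ := hN
    exact ⟨k, hk1, hk0⟩
  obtain ⟨r, ⟨hr1, hr0⟩, hmin'⟩ : ∃ r : ℕ, (1 ≤ r ∧ r • Point.some x y h = 0) ∧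
      ∀ k < r, ¬ (1 ≤ k ∧ k • Point.some x y h = 0) :=
    ⟨Nat.find hex, Nat.find_spec hex, fun k hk => Nat.find_min hex hk⟩
  have hrN : r ≤ N := by
    obtain ⟨k, hk1, hkN, hk0⟩ := hN
    by_contra hlt
    exact hmin' k (by omega) ⟨hk1, hk0⟩
  have hr2 : 2 ≤ r := by
    rcases Nat.lt_or_ge r 2 with hlt | hge
    · have : r = 1 := by omega
      rw [this, one_smul] at hr0
      exact absurd hr0 (Point.some_ne_zero h)
    · exact hge
  refine ⟨r, hr2, hrN, ?_⟩
  obtain ⟨M, rfl⟩ : ∃ M, r = M + 1 := ⟨r - 1, by omega⟩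
  obtain ⟨-, h2, -, -⟩ := dpv_first_zero h M
    (fun k hk1 hkM hk0 => hmin' k (by omega) ⟨hk1, hk0⟩)
  rw [s41net_ΨSq_eval h.1, h2.2 hr0]
  ring

/-- **`Φ_p` and `ΨSq_p` have no common root** (`p` an odd prime, `K` algebraically closed,
`Δ ≠ 0`). -/
theorem s41net_Φ_eval_ne_zero [IsAlgClosed K] (hΔ : W.Δ ≠ 0) {p : ℕ} (hp : p.Prime) (hp2 : p ≠ 2)
    {x : K} (hx : (W.ΨSq (p : ℤ)).eval x = 0) : (W.Φ (p : ℤ)).eval x ≠ 0 := by
  have hodd := dpf_odd_of_prime hp hp2
  have h0 : (W.preΨ (p : ℤ)).eval x = 0 := by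
    rw [ΨSq, if_neg (Int.not_even_iff_odd.2 hodd), mul_one, eval_pow] at hx
    exact pow_eq_zero_iff (two_ne_zero) |>.1 hx
  obtain ⟨P, hP0, hpP, hxP⟩ := (eval_preΨ_eq_zero_iff hΔ hp hp2 x).mp h0
  cases P with
  | zero => exact absurd rfl hP0
  | some x' y h =>
    have hxx : x' = x := hxP
    subst hxx
    have hord : ∀ k : ℕ, 1 ≤ k → k < p → k • Point.some x' y h ≠ 0 := by
      intro k hk1 hkp hk0
      have h1 : addOrderOf (Point.some x' y h) ∣ p := addOrderOf_dvd_of_nsmul_eq_zero hpP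
      have h2 : addOrderOf (Point.some x' y h) ∣ k := addOrderOf_dvd_of_nsmul_eq_zero hk0
      rcases (Nat.dvd_prime hp).1 h1 with h3 | h3
      · exact hP0 (AddMonoid.addOrderOf_eq_one_iff.1 h3)
      · rw [h3] at h2
        exact absurd (Nat.le_of_dvd (by omega) h2) (by omega)
    have hp3 : 3 ≤ p := by
      have := hp.two_le
      omega
    have ha : dpv W x' y ((p : ℤ) + 1) ≠ 0 := by
      apply dpv_ne_zero_of_not_dvd h hp.two_le hord hpP
      intro hd
      have : (p : ℤ) ∣ 1 := (dvd_add_right (dvd_refl _)).1 hd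
      have := Int.le_of_dvd one_pos this
      omega
    have hb : dpv W x' y ((p : ℤ) - 1) ≠ 0 := by
      apply dpv_ne_zero_of_not_dvd h hp.two_le hord hpP
      intro hd
      have : (p : ℤ) ∣ 1 := by
        have := dvd_sub (dvd_refl (p : ℤ)) hd
        simpa using this
      have := Int.le_of_dvd one_pos this
      omega
    rw [s41net_Φ_eval h.1, ← s41net_ΨSq_eval h.1, hx, mul_zero, zero_sub]
    exact neg_ne_zero.2 (mul_ne_zero ha hb)

end field

section wronskian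


theorem s41net_wronskian_coeff {K : Type*} [CommRing K] (f g : K[X]) (m : ℕ)
    (hf : f.natDegree ≤ m + 1) (hg : g.natDegree ≤ m) :
    (derivative f * g - f * derivative g).coeff (2 * m) = f.coeff (m + 1) * g.coeff m := by
  have hf' : (derivative f).natDegree ≤ m := (natDegree_derivative_le f).trans (by omega)
  have h1 : (derivative f * g).coeff (m + m) = (derivative f).coeff m * g.coeff m :=
    coeff_mul_add_eq_of_natDegree_le hf' hg
  rcases Nat.eq_zero_or_pos m with rfl | hm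
  · have hg0 : derivative g = 0 := by
      rw [eq_C_of_natDegree_le_zero hg]
      exact derivative_C
    have := h1
    simp only [add_zero, mul_zero] at this ⊢
    rw [hg0, mul_zero, sub_zero, this, coeff_derivative]
    simp
  · have hg' : (derivative g).natDegree ≤ m - 1 := (natDegree_derivative_le g).trans (by omega)
    have h2 : (f * derivative g).coeff ((m + 1) + (m - 1)) =
        f.coeff (m + 1) * (derivative g).coeff (m - 1) :=
      coeff_mul_add_eq_of_natDegree_le hf hg'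
    have e1 : 2 * m = m + m := by ring
    have e2 : (m + 1) + (m - 1) = m + m := by omega
    rw [e2] at h2
    rw [coeff_sub, e1, h1, h2, coeff_derivative, coeff_derivative]
    have e3 : m - 1 + 1 = m := by omega
    rw [e3]
    have e4 : ((m - 1 : ℕ) : K) = (m : K) - 1 := by
      rw [Nat.cast_sub hm]; simp
    rw [e4]
    ring

end wronskian

section count

variable {K : Type*} [Field K] [DecidableEq K] [IsAlgClosed K] [CharZero K] {W : Affine K}

/-- the Wronskian `Φ_p' ΨSq_p - Φ_p ΨSq_p'` -/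
noncomputable def s41netWr (W : Affine K) (p : ℕ) : K[X] :=
  derivative (W.Φ (p : ℤ)) * W.ΨSq (p : ℤ) - W.Φ (p : ℤ) * derivative (W.ΨSq (p : ℤ))

omit [DecidableEq K] [IsAlgClosed K] in
theorem s41netWr_ne_zero (W : Affine K) {p : ℕ} (hp : p.Prime) : s41netWr W p ≠ 0 := by
  intro h0
  have hp1 : 1 ≤ p ^ 2 := Nat.one_le_pow _ _ hp.pos
  have h1 : (W.Φ (p : ℤ)).natDegree ≤ (p ^ 2 - 1) + 1 := by
    have := W.natDegree_Φ_le (p : ℤ)
    rw [Int.natAbs_natCast] at this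
    omega
  have h2 : (W.ΨSq (p : ℤ)).natDegree ≤ p ^ 2 - 1 := by
    have := W.natDegree_ΨSq_le (p : ℤ)
    rwa [Int.natAbs_natCast] at this
  have h3 := s41net_wronskian_coeff (W.Φ (p : ℤ)) (W.ΨSq (p : ℤ)) (p ^ 2 - 1) h1 h2
  have e1 : p ^ 2 - 1 + 1 = ((p : ℤ)).natAbs ^ 2 := by
    rw [Int.natAbs_natCast]; omega
  have e2 : p ^ 2 - 1 = ((p : ℤ)).natAbs ^ 2 - 1 := by
    rw [Int.natAbs_natCast]
  have h4 : (W.Φ (p : ℤ)).coeff (p ^ 2 - 1 + 1) = 1 := by
    rw [e1]; exact W.coeff_Φ (p : ℤ)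
  have h5 : (W.ΨSq (p : ℤ)).coeff (p ^ 2 - 1) = ((p : ℤ) : K) ^ 2 := by
    rw [e2]; exact W.coeff_ΨSq (p : ℤ)
  rw [h4, h5, one_mul] at h3
  unfold s41netWr at h0
  rw [h0, coeff_zero] at h3
  have hpK : ((p : ℤ) : K) ≠ 0 := by
    simpa using hp.ne_zero
  exact pow_ne_zero 2 hpK h3.symm

/-- the polynomial whose roots are to be avoided -/
noncomputable def s41netBad (W : Affine K) (p : ℕ) : K[X] :=
  s41netWr W p * ∏ r ∈ Finset.Icc 2 p, W.ΨSq (r : ℤ)

omit [DecidableEq K] [IsAlgClosed K] in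
theorem s41netBad_ne_zero (W : Affine K) {p : ℕ} (hp : p.Prime) : s41netBad W p ≠ 0 := by
  unfold s41netBad
  refine mul_ne_zero (s41netWr_ne_zero W hp) ?_
  rw [Finset.prod_ne_zero_iff]
  intro r hr
  rw [Finset.mem_Icc] at hr
  apply W.ΨSq_ne_zero
  have : r ≠ 0 := by omega
  simpa using this

omit [DecidableEq K] [IsAlgClosed K] [CharZero K] in
theorem s41netBad_eval_eq_zero_of_wr (W : Affine K) (p : ℕ) {x : K}
    (h : (s41netWr W p).eval x = 0) : (s41netBad W p).eval x = 0 := by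
  unfold s41netBad
  rw [eval_mul, h, zero_mul]

omit [DecidableEq K] [IsAlgClosed K] [CharZero K] in
theorem s41netBad_eval_eq_zero_of_ΨSq (W : Affine K) (p : ℕ) {x : K} {r : ℕ} (hr2 : 2 ≤ r)
    (hrp : r ≤ p) (h : (W.ΨSq (r : ℤ)).eval x = 0) : (s41netBad W p).eval x = 0 := by
  unfold s41netBad
  rw [eval_mul, eval_prod]
  refine mul_eq_zero_of_right _ (Finset.prod_eq_zero (i := r) ?_ h)
  rw [Finset.mem_Icc]
  exact ⟨hr2, hrp⟩

/-- **`#E[p] = p²`** over an algebraically closed field of characteristic zero. -/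
theorem s41net_card_torsion_prime (hΔ : W.Δ ≠ 0) {p : ℕ} (hp : p.Prime) (hp2 : p ≠ 2) :
    Nat.card {P : W.Point // p • P = 0} = p ^ 2 := by
  have hpK : (p : K) ≠ 0 := Nat.cast_ne_zero.2 hp.ne_zero
  refine le_antisymm (card_torsion_prime_le hΔ hp hp2 hpK) ?_
  have hZ : s41netBad W p ≠ 0 := s41netBad_ne_zero W hp
  -- a generic `a`
  obtain ⟨a, ha⟩ : ∃ a : K, a ∉ (s41netBad W p).roots.toFinset.image
      (fun x => (W.Φ (p : ℤ)).eval x / (W.ΨSq (p : ℤ)).eval x) :=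
    Infinite.exists_notMem_finset _
  set F : K[X] := W.Φ (p : ℤ) - C a * W.ΨSq (p : ℤ) with hF
  have hp1 : 1 ≤ p ^ 2 := Nat.one_le_pow _ _ hp.pos
  have hdΦ : (W.Φ (p : ℤ)).natDegree = p ^ 2 := by
    rw [W.natDegree_Φ, Int.natAbs_natCast]
  have hdΨ : (C a * W.ΨSq (p : ℤ)).natDegree < p ^ 2 := by
    have h1 := W.natDegree_ΨSq_le (p : ℤ)
    rw [Int.natAbs_natCast] at h1
    have h2 := natDegree_C_mul_le a (W.ΨSq (p : ℤ))
    omega
  have hFdeg : F.natDegree = p ^ 2 := by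
    rw [hF, natDegree_sub_eq_left_of_natDegree_lt (by rw [hdΦ]; exact hdΨ), hdΦ]
  have hF0 : F ≠ 0 := by
    intro h
    rw [h, natDegree_zero] at hFdeg
    omega
  have hFeval : ∀ x, F.eval x = (W.Φ (p : ℤ)).eval x - a * (W.ΨSq (p : ℤ)).eval x := by
    intro x
    rw [hF, eval_sub, eval_mul, eval_C]
  -- the roots avoid the bad set
  have hroot : ∀ x, F.IsRoot x → (s41netBad W p).eval x ≠ 0 := by
    intro x hx hbad
    rw [IsRoot.def, hFeval] at hx
    by_cases hΨ : (W.ΨSq (p : ℤ)).eval x = 0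
    · apply s41net_Φ_eval_ne_zero hΔ hp hp2 hΨ
      rw [hΨ, mul_zero, sub_zero] at hx
      exact hx
    · apply ha
      rw [Finset.mem_image]
      refine ⟨x, ?_, ?_⟩
      · rw [Multiset.mem_toFinset, mem_roots hZ]
        exact hbad
      · rw [div_eq_iff hΨ]
        linear_combination hx
  -- the roots are simple
  have hnodup : F.roots.Nodup := by
    rw [Multiset.nodup_iff_count_le_one]
    intro x
    rw [count_roots]
    by_contra hlt
    have hlt' : 1 < rootMultiplicity x F := by omega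
    rw [one_lt_rootMultiplicity_iff_isRoot hF0] at hlt'
    obtain ⟨hx, hdx⟩ := hlt'
    apply hroot x hx
    apply s41netBad_eval_eq_zero_of_wr
    have hx' := hx
    rw [IsRoot.def, hFeval] at hx'
    rw [IsRoot.def, hF, derivative_sub, derivative_C_mul, eval_sub, eval_mul, eval_C] at hdx
    unfold s41netWr
    rw [eval_sub, eval_mul, eval_mul]
    linear_combination (W.ΨSq (p : ℤ)).eval x * hdx - (derivative (W.ΨSq (p : ℤ))).eval x * hx'
  have hcard : F.roots.toFinset.card = p ^ 2 := by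
    rw [Multiset.toFinset_card_of_nodup hnodup, IsAlgClosed.card_roots_eq_natDegree, hFdeg]
  -- points above the roots
  have hpt : ∀ x, F.IsRoot x → ∃ P : W.Point, xc P = x ∧ p • P ≠ 0 ∧ xc (p • P) = a := by
    intro x hx
    obtain ⟨y, hy⟩ := dpf_exists_equation W x
    have hns : W.Nonsingular x y := (Affine.equation_iff_nonsingular_of_Δ_ne_zero hΔ).mp hy
    have hN : ∀ k : ℕ, 1 ≤ k → k ≤ p → k • Point.some x y hns ≠ 0 := by
      intro k hk1 hkp hk0
      obtain ⟨r, hr2, hrp, hr0⟩ := s41net_exists_root_of_nsmul_eq_zero hns ⟨k, hk1, hkp, hk0⟩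
      exact hroot x hx (s41netBad_eval_eq_zero_of_ΨSq W p hr2 hrp hr0)
    obtain ⟨h1, h2⟩ := s41net_mul_formula hns p hN hp.one_le le_rfl
    refine ⟨Point.some x y hns, rfl, hN p hp.one_le le_rfl, ?_⟩
    rw [IsRoot.def, hFeval] at hx
    apply mul_right_cancel₀ h1
    rw [h2]
    linear_combination hx
  -- a base point
  obtain ⟨x₀, hx₀⟩ : ∃ x₀, F.IsRoot x₀ := by
    apply IsAlgClosed.exists_root F
    rw [degree_eq_natDegree hF0, hFdeg]
    exact_mod_cast (by omega : p ^ 2 ≠ 0)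
  obtain ⟨P₀, -, hP₀0, hP₀a⟩ := hpt x₀ hx₀
  have hpt' : ∀ x, F.IsRoot x → ∃ P : W.Point, xc P = x ∧ p • P = p • P₀ := by
    intro x hx
    obtain ⟨P, hPx, hP0, hPa⟩ := hpt x hx
    rcases (dpc_xc_eq_iff hP0 hP₀0).1 (hPa.trans hP₀a.symm) with h | h
    · exact ⟨P, hPx, h⟩
    · refine ⟨-P, by rw [Fermat.Agent.S05.xc_neg, hPx], ?_⟩
      rw [smul_neg, h, neg_neg]
  choose! φ hφx hφp using hpt'
  have hmem : ∀ x : {x // x ∈ F.roots.toFinset}, F.IsRoot x.1 := fun x =>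
    (mem_roots hF0).1 (Multiset.mem_toFinset.1 x.2)
  let ι : {x // x ∈ F.roots.toFinset} → {P : W.Point // p • P = 0} := fun x =>
    ⟨φ x.1 - P₀, by rw [smul_sub, hφp x.1 (hmem x), sub_self]⟩
  have hinj : Function.Injective ι := by
    intro x x' h
    have h1 : φ x.1 - P₀ = φ x'.1 - P₀ := congrArg Subtype.val h
    have h2 : φ x.1 = φ x'.1 := sub_left_injective h1
    apply Subtype.ext
    rw [← hφx x.1 (hmem x), ← hφx x'.1 (hmem x'), h2]
  have := finite_torsion_prime hΔ hp hp2 hpK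
  calc p ^ 2 = Nat.card {x // x ∈ F.roots.toFinset} := by
        rw [Nat.card_eq_fintype_card, Fintype.card_coe, hcard]
    _ ≤ _ := Nat.card_le_card_of_injective ι hinj

/-- the same for `Submodule.torsionBy ℤ W.Point p` -/
theorem s41net_card_torsionBy (hΔ : W.Δ ≠ 0) {p : ℕ} (hp : p.Prime) (hp2 : p ≠ 2) :
    Nat.card (Submodule.torsionBy ℤ W.Point p) = p ^ 2 := by
  rw [← s41net_card_torsion_prime hΔ hp hp2]
  refine Nat.card_congr (Equiv.subtypeEquivRight fun P => ?_)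
  rw [Submodule.mem_torsionBy_iff, natCast_zsmul]

theorem s41net_finite_torsionBy (hΔ : W.Δ ≠ 0) {p : ℕ} (hp : p.Prime) (hp2 : p ≠ 2) :
    Finite (Submodule.torsionBy ℤ W.Point p) := by
  apply Nat.finite_of_card_ne_zero
  rw [s41net_card_torsionBy hΔ hp hp2]
  exact pow_ne_zero 2 hp.ne_zero

end count

section rat

/-- **`#E[p](ℚ̄) = p²`** for an elliptic curve over `ℚ` and an odd prime `p`. -/
theorem s41net_card_torsionBy_rat (E : WeierstrassCurve ℚ) [E.IsElliptic] {p : ℕ} (hp : p.Prime)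
    (hp2 : p ≠ 2) :
    Nat.card (Submodule.torsionBy ℤ (E⁄(AlgebraicClosure ℚ)).Point p) = p ^ 2 := by
  apply s41net_card_torsionBy _ hp hp2
  have h : (E.map (algebraMap ℚ (AlgebraicClosure ℚ))).IsElliptic := inferInstance
  exact h.isUnit.ne_zero

end rat

end Fermat.Agent.S41
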