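import Mathlib

set_option autoImplicit false
set_option linter.unusedVariables false
set_option linter.unusedSectionVars false
set_option linter.unusedSimpArgs false

/-!
# S41, package NE, file Katz: the Katz–Clifford lemma

`V` an `𝔽_p`-vector space with `p²` elements, `G` a group acting linearly and irreducibly on `V`.

* `s41nek_trivial_of_forall_fixed` : a normal subgroup `H` of `G` all of whose elements fix a
  nonzero vector acts trivially on `V`.
* `s41nek_false_of_comm_of_pow` : the action of `G` cannot be through commuting operators of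
  exponent dividing `p - 1`.

Proof of the first: `H ∩ ker det` consists of unipotent elements, so acts through a `p`-group, which
has a nonzero fixed vector; the fixed space of a normal subgroup is `G`-stable, so `H ∩ ker det`
acts trivially; then `H` acts through the cyclic group `det H ⊆ 𝔽_pˣ`, a generator fixes a nonzero
vector, which is then fixed by all of `H`.
-/

namespace Fermat.Agent.S41

open Matrix

section matrix

variable {p : ℕ} [hp : Fact p.Prime]

/-- a `2 × 2` matrix of determinant `1` with a nonzero fixed vector is unipotent -/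
theorem s41nek_matrix_sub_one_sq (M : Matrix (Fin 2) (Fin 2) (ZMod p)) (hdet : M.det = 1)
    (hfix : ∃ w : Fin 2 → ZMod p, w ≠ 0 ∧ M *ᵥ w = w) : (M - 1) ^ 2 = 0 := by
  have h0 : (M - 1).det = 0 := by
    rw [← Matrix.exists_mulVec_eq_zero_iff]
    obtain ⟨w, hw0, hw⟩ := hfix
    exact ⟨w, hw0, by rw [Matrix.sub_mulVec, hw, Matrix.one_mulVec, sub_self]⟩
  rw [Matrix.det_fin_two] at h0 hdet
  simp only [Matrix.sub_apply, Matrix.one_apply_eq, Matrix.one_apply_ne, ne_eq, Fin.isValue,
    zero_ne_one, one_ne_zero, not_false_eq_true, sub_zero] at h0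
  have htr : M 0 0 + M 1 1 = 2 := by linear_combination hdet - h0
  ext i j
  fin_cases i <;> fin_cases j
  · simp only [pow_two, Matrix.mul_apply, Fin.sum_univ_two, Matrix.sub_apply, Matrix.one_apply_eq,
      Matrix.one_apply_ne, ne_eq, Fin.isValue, zero_ne_one, one_ne_zero, not_false_eq_true,
      sub_zero, Fin.zero_eta, Matrix.zero_apply]
    linear_combination (M 0 0 - 1) * htr - h0
  · simp only [pow_two, Matrix.mul_apply, Fin.sum_univ_two, Matrix.sub_apply, Matrix.one_apply_eq,
      Matrix.one_apply_ne, ne_eq, Fin.isValue, zero_ne_one, one_ne_zero, not_false_eq_true,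
      sub_zero, Fin.zero_eta, Fin.mk_one, Matrix.zero_apply]
    linear_combination (M 0 1) * htr
  · simp only [pow_two, Matrix.mul_apply, Fin.sum_univ_two, Matrix.sub_apply, Matrix.one_apply_eq,
      Matrix.one_apply_ne, ne_eq, Fin.isValue, zero_ne_one, one_ne_zero, not_false_eq_true,
      sub_zero, Fin.zero_eta, Fin.mk_one, Matrix.zero_apply]
    linear_combination (M 1 0) * htr
  · simp only [pow_two, Matrix.mul_apply, Fin.sum_univ_two, Matrix.sub_apply, Matrix.one_apply_eq,
      Matrix.one_apply_ne, ne_eq, Fin.isValue, zero_ne_one, one_ne_zero, not_false_eq_true,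
      sub_zero, Fin.mk_one, Matrix.zero_apply]
    linear_combination (M 1 1 - 1) * htr - h0

theorem s41nek_matrix_pow (M : Matrix (Fin 2) (Fin 2) (ZMod p)) (hdet : M.det = 1)
    (hfix : ∃ w : Fin 2 → ZMod p, w ≠ 0 ∧ M *ᵥ w = w) : M ^ p = 1 := by
  have h2 := s41nek_matrix_sub_one_sq M hdet hfix
  have hN : (M - 1) ^ p = 0 := by
    have hp2 : 2 ≤ p := hp.out.two_le
    obtain ⟨k, rfl⟩ : ∃ k, p = 2 + k := ⟨p - 2, by omega⟩
    rw [pow_add, h2, zero_mul]
  have hM : M = (M - 1) + 1 := by abel
  have hc : Commute (M - 1) (1 : Matrix (Fin 2) (Fin 2) (ZMod p)) := Commute.one_right _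
  conv_lhs => rw [hM]
  rw [add_pow_char_of_commute _ hc, hN, one_pow, zero_add]

end matrix

section action

variable {p : ℕ} [hp : Fact p.Prime] {V : Type*} [AddCommGroup V] [Module (ZMod p) V]
  {G : Type*} [Group G] [DistribMulAction G V] [SMulCommClass G (ZMod p) V]

/-- the determinant character of a linear action -/
noncomputable def s41nekDet (p : ℕ) (V : Type*) [AddCommGroup V] [Module (ZMod p) V]
    (G : Type*) [Group G] [DistribMulAction G V] [SMulCommClass G (ZMod p) V] : G →* ZMod p :=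
  LinearMap.det.comp (DistribMulAction.toModuleEnd (ZMod p) V)

/-- the space of vectors fixed by a subgroup -/
def s41nekFix (p : ℕ) (V : Type*) [AddCommGroup V] [Module (ZMod p) V]
    {G : Type*} [Group G] [DistribMulAction G V] [SMulCommClass G (ZMod p) V] (S : Subgroup G) :
    Submodule (ZMod p) V where
  carrier := {v | ∀ s ∈ S, s • v = v}
  add_mem' := fun {a b} ha hb s hs => by rw [smul_add, ha s hs, hb s hs]
  zero_mem' := fun s _ => smul_zero s
  smul_mem' := fun c v hv s hs => by rw [smul_comm, hv s hs]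

theorem s41nek_mem_fix {S : Subgroup G} {v : V} :
    v ∈ s41nekFix p V S ↔ ∀ s ∈ S, s • v = v := Iff.rfl

/-- the fixed space of a normal subgroup is stable under the whole group -/
theorem s41nek_fix_stable (S : Subgroup G) [hS : S.Normal] (g : G) {v : V}
    (hv : v ∈ s41nekFix p V S) : g • v ∈ s41nekFix p V S := by
  intro s hs
  have h1 : g⁻¹ * s * g ∈ S := hS.conj_mem' s hs g
  have h2 := hv _ h1
  calc s • g • v = g • (g⁻¹ * s * g) • v := by
        rw [← mul_smul, ← mul_smul]; congr 1; group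
    _ = g • v := by rw [h2]

/-- a normal subgroup with a nonzero fixed vector acts trivially on an irreducible space -/
theorem s41nek_trivial_of_fixed
    (hirr : ∀ N : Submodule (ZMod p) V, (∀ g : G, ∀ x ∈ N, g • x ∈ N) → N = ⊥ ∨ N = ⊤)
    (S : Subgroup G) [S.Normal] (hfix : ∃ v : V, v ≠ 0 ∧ ∀ s ∈ S, s • v = v) :
    ∀ s ∈ S, ∀ v : V, s • v = v := by
  obtain ⟨v₀, hv₀, hfix₀⟩ := hfix
  rcases hirr (s41nekFix p V S) (fun g x hx => s41nek_fix_stable S g hx) with h | h
  · exfalso
    have : v₀ ∈ s41nekFix p V S := hfix₀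
    rw [h, Submodule.mem_bot] at this
    exact hv₀ this
  · intro s hs v
    have : v ∈ s41nekFix p V S := by rw [h]; trivial
    exact this s hs

theorem s41nek_finite_of_card (hcard : Nat.card V = p ^ 2) : Finite V :=
  Nat.finite_of_card_ne_zero (by rw [hcard]; exact pow_ne_zero 2 hp.out.ne_zero)

theorem s41nek_finrank_eq_two (hcard : Nat.card V = p ^ 2) : Module.finrank (ZMod p) V = 2 := by
  have hfin : Finite V := s41nek_finite_of_card hcard
  have : Fintype V := Fintype.ofFinite V
  have h1 := Module.card_eq_pow_finrank (K := ZMod p) (V := V)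
  rw [ZMod.card, ← Nat.card_eq_fintype_card, hcard] at h1
  exact (Nat.pow_right_injective hp.out.two_le h1).symm

/-- an element of determinant `1` with a nonzero fixed vector has `p`-th power acting trivially -/
theorem s41nek_pow_smul_of_det_eq_one (hcard : Nat.card V = p ^ 2) (g : G)
    (hdet : s41nekDet p V G g = 1) (hfix : ∃ v : V, v ≠ 0 ∧ g • v = v) (v : V) :
    g ^ p • v = v := by
  have hfin : Finite V := s41nek_finite_of_card hcard
  have hfr := s41nek_finrank_eq_two hcard
  have hmf : Module.Finite (ZMod p) V := Module.Finite.of_finite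
  let b : Module.Basis (Fin 2) (ZMod p) V := Module.finBasisOfFinrankEq (ZMod p) V hfr
  set f : V →ₗ[ZMod p] V := DistribMulAction.toModuleEnd (ZMod p) V g with hf
  have hfv : ∀ x : V, f x = g • x := fun x => rfl
  set M := LinearMap.toMatrix b b f with hM
  have hMdet : M.det = 1 := by
    rw [hM, LinearMap.det_toMatrix b f]
    exact hdet
  have hMfix : ∃ w : Fin 2 → ZMod p, w ≠ 0 ∧ M *ᵥ w = w := by
    obtain ⟨v₀, hv₀, hgv₀⟩ := hfix
    refine ⟨⇑(b.repr v₀), ?_, ?_⟩
    · intro h0
      apply hv₀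
      have : b.repr v₀ = 0 := by
        ext i
        exact congrFun h0 i
      exact (LinearEquiv.map_eq_zero_iff _).1 this
    · rw [hM, LinearMap.toMatrix_mulVec_repr, hfv, hgv₀]
  have hMp := s41nek_matrix_pow M hMdet hMfix
  rw [hM, LinearMap.toMatrix_pow, ← LinearMap.toMatrix_one b] at hMp
  have hfp : f ^ p = 1 := (LinearMap.toMatrix b b).injective hMp
  have h1 : (f ^ p) v = g ^ p • v := by
    rw [hf, ← map_pow]
    rfl
  rw [← h1, hfp]
  rfl

/-- a subgroup whose elements have `p`-th power acting trivially fixes a nonzero vector -/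
theorem s41nek_exists_fixed_of_pow (hcard : Nat.card V = p ^ 2) (S : Subgroup G)
    (hS : ∀ s ∈ S, ∀ v : V, s ^ p • v = v) : ∃ v : V, v ≠ 0 ∧ ∀ s ∈ S, s • v = v := by
  have hfin : Finite V := s41nek_finite_of_card hcard
  let φ : G →* Equiv.Perm V := MulAction.toPermHom G V
  have hφ : ∀ (g : G) (v : V), φ g v = g • v := fun g v => rfl
  let P : Subgroup (Equiv.Perm V) := S.map φ
  have hP : IsPGroup p P := by
    rintro ⟨x, hx⟩
    obtain ⟨s, hs, rfl⟩ := Subgroup.mem_map.1 hx
    refine ⟨1, ?_⟩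
    apply Subtype.ext
    rw [pow_one, Subgroup.coe_pow, Subgroup.coe_one]
    show φ s ^ p = 1
    rw [← map_pow]
    ext v
    rw [hφ, hS s hs v]
    rfl
  have h0 : (0 : V) ∈ MulAction.fixedPoints P V := by
    rintro ⟨x, hx⟩
    obtain ⟨s, hs, rfl⟩ := Subgroup.mem_map.1 hx
    show φ s 0 = 0
    rw [hφ, smul_zero]
  have hdvd : p ∣ Nat.card V := by
    rw [hcard]
    exact dvd_pow_self p two_ne_zero
  obtain ⟨b, hb, hb0⟩ := hP.exists_fixed_point_of_prime_dvd_card_of_fixed_point V hdvd h0
  refine ⟨b, fun h => hb0 h.symm, fun s hs => ?_⟩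
  have := hb ⟨φ s, Subgroup.mem_map.2 ⟨s, hs, rfl⟩⟩
  exact this

/-- **Katz–Clifford lemma.** A normal subgroup all of whose elements fix a nonzero vector acts
trivially on an irreducible `2`-dimensional space. -/
theorem s41nek_trivial_of_forall_fixed (hcard : Nat.card V = p ^ 2)
    (hirr : ∀ N : Submodule (ZMod p) V, (∀ g : G, ∀ x ∈ N, g • x ∈ N) → N = ⊥ ∨ N = ⊤)
    (H : Subgroup G) [hHn : H.Normal] (hH : ∀ h ∈ H, ∃ v : V, v ≠ 0 ∧ h • v = v) :
    ∀ h ∈ H, ∀ v : V, h • v = v := by
  set d : G →* ZMod p := s41nekDet p V G with hd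
  -- the unipotent part acts trivially
  have hSn : (H ⊓ d.ker).Normal := Subgroup.normal_inf_normal H d.ker
  have hSpow : ∀ s ∈ H ⊓ d.ker, ∀ v : V, s ^ p • v = v := by
    intro s hs v
    exact s41nek_pow_smul_of_det_eq_one hcard s (MonoidHom.mem_ker.1 hs.2) (hH s hs.1) v
  have hStriv : ∀ s ∈ H ⊓ d.ker, ∀ v : V, s • v = v :=
    s41nek_trivial_of_fixed hirr (H ⊓ d.ker) (s41nek_exists_fixed_of_pow hcard _ hSpow)
  -- `H` acts through a cyclic group
  let d' : G →* (ZMod p)ˣ := d.toHomUnits
  have hd' : ∀ g : G, ((d' g : (ZMod p)ˣ) : ZMod p) = d g := fun g => rfl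
  obtain ⟨⟨u, hu⟩, hgen⟩ := IsCyclic.exists_generator (α := H.map d')
  obtain ⟨h₀, hh₀, rfl⟩ := Subgroup.mem_map.1 hu
  obtain ⟨v₀, hv₀, hfix₀⟩ := hH h₀ hh₀
  have hstab : ∀ n : ℤ, h₀ ^ n • v₀ = v₀ := by
    intro n
    have h1 : h₀ ∈ MulAction.stabilizer G v₀ := hfix₀
    exact (MulAction.stabilizer G v₀).zpow_mem h1 n
  apply s41nek_trivial_of_fixed hirr H
  refine ⟨v₀, hv₀, fun h hh => ?_⟩
  obtain ⟨n, hn⟩ := Subgroup.mem_zpowers_iff.1 (hgen ⟨d' h, Subgroup.mem_map.2 ⟨h, hh, rfl⟩⟩)
  have hn' : d' h₀ ^ n = d' h := by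
    have := congrArg Subtype.val hn
    simpa using this
  have ht : h * (h₀ ^ n)⁻¹ ∈ H ⊓ d.ker := by
    refine ⟨H.mul_mem hh (H.inv_mem (H.zpow_mem hh₀ n)), ?_⟩
    show h * (h₀ ^ n)⁻¹ ∈ d.ker
    rw [MonoidHom.mem_ker, ← hd', map_mul, map_inv, map_zpow, hn', mul_inv_cancel]
    rfl
  have h2 := hStriv _ ht (h₀ ^ n • v₀)
  rw [← mul_smul, inv_mul_cancel_right, hstab] at h2
  exact h2

/-- a line stable under the group contradicts irreducibility -/
theorem s41nek_false_of_stable_line (hcard : Nat.card V = p ^ 2)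
    (hirr : ∀ N : Submodule (ZMod p) V, (∀ g : G, ∀ x ∈ N, g • x ∈ N) → N = ⊥ ∨ N = ⊤)
    {v : V} (hv : v ≠ 0) (hst : ∀ g : G, ∃ c : ZMod p, g • v = c • v) : False := by
  have hfr := s41nek_finrank_eq_two hcard
  have hstable : ∀ g : G, ∀ x ∈ Submodule.span (ZMod p) {v}, g • x ∈ Submodule.span (ZMod p) {v} := by
    intro g x hx
    obtain ⟨a, rfl⟩ := Submodule.mem_span_singleton.1 hx
    obtain ⟨c, hc⟩ := hst g
    rw [smul_comm, hc]
    exact Submodule.smul_mem _ _ (Submodule.smul_mem _ _ (Submodule.mem_span_singleton_self v))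
  rcases hirr _ hstable with h | h
  · have : v ∈ Submodule.span (ZMod p) {v} := Submodule.mem_span_singleton_self v
    rw [h, Submodule.mem_bot] at this
    exact hv this
  · have h1 : Module.finrank (ZMod p) (Submodule.span (ZMod p) {v}) = 1 :=
      finrank_span_singleton hv
    rw [h, finrank_top, hfr] at h1
    omega

/-- the trivial action on a `2`-dimensional space is not irreducible -/
theorem s41nek_false_of_trivial (hcard : Nat.card V = p ^ 2)
    (hirr : ∀ N : Submodule (ZMod p) V, (∀ g : G, ∀ x ∈ N, g • x ∈ N) → N = ⊥ ∨ N = ⊤)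
    (htriv : ∀ (g : G) (v : V), g • v = v) : False := by
  have hfin : Finite V := s41nek_finite_of_card hcard
  have hnt : Nontrivial V := by
    rw [← Finite.one_lt_card_iff_nontrivial, hcard]
    exact Nat.one_lt_pow two_ne_zero hp.out.one_lt
  obtain ⟨v, hv⟩ := exists_ne (0 : V)
  exact s41nek_false_of_stable_line hcard hirr hv (fun g => ⟨1, by rw [htriv, one_smul]⟩)

/-- **Katz, final form.** If `G` acts irreducibly on `V` with `#V = p²`, some element of `G` has no
nonzero fixed vector. -/
theorem s41nek_exists_no_fixed (hcard : Nat.card V = p ^ 2)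
    (hirr : ∀ N : Submodule (ZMod p) V, (∀ g : G, ∀ x ∈ N, g • x ∈ N) → N = ⊥ ∨ N = ⊤) :
    ∃ g : G, ∀ v : V, g • v = v → v = 0 := by
  by_contra hcon
  push Not at hcon
  apply s41nek_false_of_trivial hcard hirr
  intro g v
  exact s41nek_trivial_of_forall_fixed hcard hirr ⊤
    (fun h _ => by
      obtain ⟨v, hv, hv0⟩ := hcon h
      exact ⟨v, hv0, hv⟩) g trivial v

end action

end Fermat.Agent.S41
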