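import Mathlib
import Fermat.Prelude.Def_FLTPrelim_Modularity
import Fermat.Prelude.Def_FLTPrelim_Ramification
import Fermat.Agent.S05.Main
import Fermat.Agent.S05.Inertia
import Fermat.Agent.S13.DPF

set_option autoImplicit false
set_option linter.unusedVariables false
set_option linter.unusedSectionVars false

/-!
# S41, package NE, file Red: a point of order `p` of the reduction mod `ℓ` lifts to a `p`-torsion
point fixed by the decomposition group

`W` a Weierstrass curve over `ℤ`, `ℓ` a prime of good reduction, `p ≠ ℓ` an odd prime with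
`p ∣ #W̃(𝔽_ℓ) = ℓ + 1 - a_ℓ`. Then for every valuation subring `A` of `ℚ̄` over `ℓ` and every `φ` in
the decomposition group of `A` there is a nonzero `p`-torsion point of `W(ℚ̄)` fixed by `φ`.

Route: Cauchy gives `T̃ = (ξ, η) ∈ W̃(𝔽_ℓ)` of order `p`; `ξ` is a root of `preΨ_p` mod `ℓ`; the roots
of `preΨ_p` over `ℚ̄` are `A`-integral (`x`-coordinates of `p`-torsion points; kernel of reduction
is `p`-torsion free) and the leading coefficient `p` is a unit, so some root `x ≡ ξ`; adjust the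
sign of `y`; then `φ T` and `T` have the same nonsingular reduction, so `φ T - T` is a `p`-torsion
point in the kernel of reduction, hence `0` (`S05`: `sameRed_sub`, `kerRed_torsion_free`).
No reduction homomorphism is needed.
-/

namespace Fermat.Agent.S41

open WeierstrassCurve WeierstrassCurve.Affine Polynomial
open Fermat.Agent.S05
open Fermat.Agent.S13

section valsub

variable {L : Type*} [Field L] (A : ValuationSubring L)

theorem s41ner_nonunits_iff {a : L} : a ∈ A.nonunits ↔ A.valuation a < 1 :=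
  ValuationSubring.mem_nonunits_iff (A := A)

theorem s41ner_mem_iff {a : L} : a ∈ A ↔ A.valuation a ≤ 1 :=
  (A.valuation_le_one_iff a).symm

/-- the maximal ideal is prime -/
theorem s41ner_nonunits_of_mul {a b : L} (ha : a ∈ A) (hb : b ∈ A) (hab : a * b ∈ A.nonunits) :
    a ∈ A.nonunits ∨ b ∈ A.nonunits := by
  rw [s41ner_nonunits_iff, s41ner_nonunits_iff]
  rw [s41ner_nonunits_iff, map_mul] at hab
  rw [s41ner_mem_iff] at ha hb
  by_contra hcon
  push Not at hcon
  have h1 : A.valuation a = 1 := le_antisymm ha hcon.1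
  have h2 : A.valuation b = 1 := le_antisymm hb hcon.2
  rw [h1, h2, one_mul] at hab
  exact lt_irrefl _ hab

/-- a product of elements of `A` lying in the maximal ideal has a factor in the maximal ideal -/
theorem s41ner_exists_of_multiset_prod (s : Multiset L) (z : L) (hs : ∀ r ∈ s, z - r ∈ A)
    (hprod : (s.map (fun r => z - r)).prod ∈ A.nonunits) : ∃ r ∈ s, z - r ∈ A.nonunits := by
  induction s using Multiset.induction_on with
  | empty =>
    exfalso
    rw [Multiset.map_zero, Multiset.prod_zero, s41ner_nonunits_iff, map_one] at hprod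
    exact lt_irrefl _ hprod
  | cons a s ih =>
    rw [Multiset.map_cons, Multiset.prod_cons] at hprod
    have ha : z - a ∈ A := hs a (Multiset.mem_cons_self a s)
    have hs' : ∀ r ∈ s, z - r ∈ A := fun r hr => hs r (Multiset.mem_cons_of_mem hr)
    have hp : (s.map (fun r => z - r)).prod ∈ A := by
      apply Submonoid.multiset_prod_mem A.toSubring.toSubmonoid
      intro c hc
      obtain ⟨r, hr, rfl⟩ := Multiset.mem_map.1 hc
      exact hs' r hr
    rcases s41ner_nonunits_of_mul A ha hp hprod with h | h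
    · exact ⟨a, Multiset.mem_cons_self a s, h⟩
    · obtain ⟨r, hr, hr'⟩ := ih hs' h
      exact ⟨r, Multiset.mem_cons_of_mem hr, hr'⟩

variable {K : Type*} [Field K] [Algebra K L]

open scoped Pointwise in
theorem s41ner_decomp_mem_iff {φ : L ≃ₐ[K] L} (hφ : φ ∈ A.decompositionSubgroup K) (x : L) :
    φ x ∈ A ↔ x ∈ A := by
  have hstab : φ • A = A := hφ
  constructor
  · intro hx
    have : φ • x ∈ φ • A := by rw [hstab]; exact hx
    exact ValuationSubring.smul_mem_pointwise_smul_iff.mp this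
  · intro hx
    have := ValuationSubring.smul_mem_pointwise_smul φ x A hx
    rw [hstab] at this
    exact this

theorem s41ner_decomp_nonunits {φ : L ≃ₐ[K] L} (hφ : φ ∈ A.decompositionSubgroup K) {x : L}
    (hx : x ∈ A.nonunits) : φ x ∈ A.nonunits := by
  by_cases hx0 : x = 0
  · rw [hx0, map_zero]
    rw [s41ner_nonunits_iff, map_zero]
    exact zero_lt_one
  have hxA : x ∈ A := A.nonunits_subset hx
  have hinv : x⁻¹ ∉ A := by
    intro hinv
    rw [s41ner_nonunits_iff] at hx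
    rw [s41ner_mem_iff, map_inv₀] at hinv
    have hpos : 0 < A.valuation x := by
      rw [zero_lt_iff, ne_eq, map_eq_zero]; exact hx0
    have := (inv_le_one₀ hpos).mp hinv
    exact absurd hx (not_lt.mpr this)
  have hφx0 : φ x ≠ 0 := fun h => hx0 ((map_eq_zero_iff φ φ.injective).1 h)
  have hφinv : (φ x)⁻¹ ∉ A := by
    rw [← map_inv₀, s41ner_decomp_mem_iff A hφ]
    exact hinv
  rw [s41ner_nonunits_iff]
  by_contra hge
  rw [not_lt] at hge
  apply hφinv
  rw [s41ner_mem_iff, map_inv₀]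
  have hpos : 0 < A.valuation (φ x) := by
    rw [zero_lt_iff, ne_eq, map_eq_zero]; exact hφx0
  exact (inv_le_one₀ hpos).mpr hge

end valsub

section curve

variable {L : Type*} [Field L] [DecidableEq L] {A : ValuationSubring L} {W : Affine L}

/-- a torsion point of order prime to the residue characteristic has integral `x`-coordinate -/
theorem s41ner_x_mem_of_torsion (hW : IsIntegralAt A W) {n : ℕ} (hn0 : (n : L) ≠ 0)
    (hn : ((n : L))⁻¹ ∈ A) {x y : L} (h : W.Nonsingular x y)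
    (hT : n • Point.some x y h = 0) : x ∈ A := by
  by_contra hx
  have := kerRed_torsion_free (A := A) hW hn0 hn (P := Point.some x y h) (by simpa using hx) hT
  exact Point.some_ne_zero h this

theorem s41ner_y_mem_of_torsion (hW : IsIntegralAt A W) {n : ℕ} (hn0 : (n : L) ≠ 0)
    (hn : ((n : L))⁻¹ ∈ A) {x y : L} (h : W.Nonsingular x y)
    (hT : n • Point.some x y h = 0) : y ∈ A :=
  samered_y_mem_of_x_mem A W hW.1 hW.2.1 hW.2.2.1 hW.2.2.2.1 hW.2.2.2.2 h.1
    (s41ner_x_mem_of_torsion hW hn0 hn h hT)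

/-- **two torsion points with the same (nonsingular) reduction are equal** -/
theorem s41ner_eq_of_congr (hW : IsIntegralAt A W) (hΔ : W.Δ ∉ A.nonunits) {n : ℕ}
    (hn0 : (n : L) ≠ 0) (hn : ((n : L))⁻¹ ∈ A) {x y x' y' : L} (h : W.Nonsingular x y)
    (h' : W.Nonsingular x' y') (hT : n • Point.some x y h = 0)
    (hT' : n • Point.some x' y' h' = 0) (hxx : x - x' ∈ A.nonunits)
    (hyy : y - y' ∈ A.nonunits) : Point.some x y h = Point.some x' y' h' := by
  have hx := s41ner_x_mem_of_torsion hW hn0 hn h hT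
  have hy := s41ner_y_mem_of_torsion hW hn0 hn h hT
  have hx' := s41ner_x_mem_of_torsion hW hn0 hn h' hT'
  have hy' := s41ner_y_mem_of_torsion hW hn0 hn h' hT'
  have hns := main_not_both_partials_of_Δ A W hW.1 hW.2.1 hΔ h.1 hx
  have hker : InKerRed A W (Point.some x y h - Point.some x' y' h') := by
    rcases sameRed_sub A W hW.1 hW.2.1 hW.2.2.1 hW.2.2.2.1 h h' hx hy hx' hy' hxx hyy hns with
      h0 | ⟨x₃, y₃, h₃, e, hx₃⟩
    · rw [h0]; exact inKerRed_zero
    · rw [e]; exact (inKerRed_some h₃).2 hx₃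
  have hsub : n • (Point.some x y h - Point.some x' y' h') = 0 := by
    rw [smul_sub, hT, hT', sub_zero]
  exact sub_eq_zero.1 (kerRed_torsion_free hW hn0 hn hker hsub)

end curve

section lift

variable {L : Type*} [Field L] [DecidableEq L] (A : ValuationSubring L) (W : WeierstrassCurve ℤ)

theorem s41ner_isIntegralAt : IsIntegralAt A (W.map (Int.castRingHom L)).toAffine := by
  refine ⟨?_, ?_, ?_, ?_, ?_⟩
  · show (W.map (Int.castRingHom L)).a₁ ∈ A
    rw [WeierstrassCurve.map_a₁]; exact intCast_mem A _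
  · show (W.map (Int.castRingHom L)).a₂ ∈ A
    rw [WeierstrassCurve.map_a₂]; exact intCast_mem A _
  · show (W.map (Int.castRingHom L)).a₃ ∈ A
    rw [WeierstrassCurve.map_a₃]; exact intCast_mem A _
  · show (W.map (Int.castRingHom L)).a₄ ∈ A
    rw [WeierstrassCurve.map_a₄]; exact intCast_mem A _
  · show (W.map (Int.castRingHom L)).a₆ ∈ A
    rw [WeierstrassCurve.map_a₆]; exact intCast_mem A _

variable {A W}

theorem s41ner_Δ_not_mem {ℓ : ℕ} (hℓ : ℓ.Prime) (hA : A.LiesOverPrime ℓ)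
    (hgood : ¬ (ℓ : ℤ) ∣ W.Δ) : (W.map (Int.castRingHom L)).Δ ∉ A.nonunits := by
  rw [WeierstrassCurve.map_Δ, s41ner_nonunits_iff]
  have : A.valuation ((W.Δ : ℤ) : L) = 1 := (valuation_intCast_eq_one_iff A hℓ hA W.Δ).2 hgood
  show ¬ A.valuation ((W.Δ : ℤ) : L) < 1
  rw [this]
  exact lt_irrefl _

theorem s41ner_val_prime {ℓ p : ℕ} (hℓ : ℓ.Prime) (hp : p.Prime) (hℓp : ℓ ≠ p)
    (hA : A.LiesOverPrime ℓ) : A.valuation (p : L) = 1 := by
  have h : ¬ (ℓ : ℤ) ∣ (p : ℤ) := by
    intro h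
    have h2 : ℓ ∣ p := by exact_mod_cast h
    exact hℓp ((Nat.prime_dvd_prime_iff_eq hℓ hp).1 h2)
  have := (valuation_intCast_eq_one_iff A hℓ hA (p : ℤ)).2 h
  exact_mod_cast this

theorem s41ner_prime_ne_zero {ℓ p : ℕ} (hℓ : ℓ.Prime) (hp : p.Prime) (hℓp : ℓ ≠ p)
    (hA : A.LiesOverPrime ℓ) : (p : L) ≠ 0 := by
  intro h0
  have := s41ner_val_prime (A := A) hℓ hp hℓp hA
  rw [h0, map_zero] at this
  exact zero_ne_one this

theorem s41ner_prime_inv_mem {ℓ p : ℕ} (hℓ : ℓ.Prime) (hp : p.Prime) (hℓp : ℓ ≠ p)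
    (hA : A.LiesOverPrime ℓ) : ((p : L))⁻¹ ∈ A := by
  rw [s41ner_mem_iff, map_inv₀, s41ner_val_prime hℓ hp hℓp hA, inv_one]

/-- an integer divisible by `ℓ` lies in the maximal ideal -/
theorem s41ner_intCast_nonunits {ℓ : ℕ} (hA : A.LiesOverPrime ℓ) {k : ℤ} (hk : (ℓ : ℤ) ∣ k) :
    (k : L) ∈ A.nonunits := by
  obtain ⟨c, rfl⟩ := hk
  push_cast
  exact samered_nu_mul_right A hA (intCast_mem A c)

/-- **lifting the `x`-coordinate**: a root mod `ℓ` of `preΨ_p` is congruent to the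
`x`-coordinate of a nonzero `p`-torsion point. -/
theorem s41ner_exists_lift_x [IsAlgClosed L] {ℓ p : ℕ} (hℓ : ℓ.Prime) (hp : p.Prime) (hp2 : p ≠ 2)
    (hℓp : ℓ ≠ p) (hA : A.LiesOverPrime ℓ) (hgood : ¬ (ℓ : ℤ) ∣ W.Δ) (n : ℤ)
    (hroot : (ℓ : ℤ) ∣ (W.preΨ (p : ℤ)).eval n) :
    ∃ (x y : L) (h : (W.map (Int.castRingHom L)).toAffine.Nonsingular x y),
      p • Point.some x y h = 0 ∧ x - (n : L) ∈ A.nonunits := by
  have hpL : (p : L) ≠ 0 := s41ner_prime_ne_zero hℓ hp hℓp hA
  have hpinv : ((p : L))⁻¹ ∈ A := s41ner_prime_inv_mem hℓ hp hℓp hA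
  have hint := s41ner_isIntegralAt A W
  have hΔ : (W.map (Int.castRingHom L)).toAffine.Δ ≠ 0 := by
    intro h0
    apply s41ner_Δ_not_mem (A := A) (W := W) hℓ hA hgood
    have h0' : (W.map (Int.castRingHom L)).Δ = 0 := h0
    rw [h0', s41ner_nonunits_iff, map_zero]
    exact zero_lt_one
  have hodd := dpf_odd_of_prime hp hp2
  set P : L[X] := (W.map (Int.castRingHom L)).preΨ (p : ℤ) with hP
  have hPmap : P = (W.preΨ (p : ℤ)).map (Int.castRingHom L) := by
    rw [hP, WeierstrassCurve.map_preΨ]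
  have hpL' : (((p : ℕ) : ℤ) : L) ≠ 0 := by simpa using hpL
  have hlead : P.leadingCoeff = (p : L) := by
    rw [hP, WeierstrassCurve.leadingCoeff_preΨ _ hpL', if_neg (Int.not_even_iff_odd.2 hodd)]
    simp
  have heval : P.eval (n : L) ∈ A.nonunits := by
    rw [hPmap, eval_intCast_map]
    exact s41ner_intCast_nonunits hA hroot
  have hsplit : P.Splits := IsAlgClosed.splits P
  have hrootsA : ∀ r ∈ P.roots, (n : L) - r ∈ A := by
    intro r hr
    have hr0 : P.eval r = 0 := (mem_roots'.1 hr).2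
    obtain ⟨T, hT0, hpT, hxT⟩ := (eval_preΨ_eq_zero_iff hΔ hp hp2 r).mp hr0
    cases T with
    | zero => exact absurd rfl hT0
    | some x y h =>
      have : x = r := hxT
      subst this
      exact sub_mem (intCast_mem A n) (s41ner_x_mem_of_torsion hint hpL hpinv h hpT)
  have hprod : (P.roots.map (fun r => (n : L) - r)).prod ∈ A.nonunits := by
    have h1 := hsplit.eval_eq_prod_roots (n : L)
    rw [hlead] at h1
    have h2 : (P.roots.map (fun r => (n : L) - r)).prod = ((p : L))⁻¹ * P.eval (n : L) := by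
      rw [h1, ← mul_assoc, inv_mul_cancel₀ hpL, one_mul]
    rw [h2]
    exact samered_nu_mul_left A hpinv heval
  obtain ⟨r, hr, hnr⟩ := s41ner_exists_of_multiset_prod A P.roots (n : L) hrootsA hprod
  have hr0 : P.eval r = 0 := (mem_roots'.1 hr).2
  obtain ⟨T, hT0, hpT, hxT⟩ := (eval_preΨ_eq_zero_iff hΔ hp hp2 r).mp hr0
  cases T with
  | zero => exact absurd rfl hT0
  | some x y h =>
    have : x = r := hxT
    subst this
    refine ⟨x, y, h, hpT, ?_⟩
    have := samered_nu_neg A hnr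
    rwa [neg_sub] at this

/-- **lifting a point of order `p`** of the reduction mod `ℓ` to a `p`-torsion point congruent to
it. -/
theorem s41ner_exists_lift [IsAlgClosed L] {ℓ p : ℕ} [hℓ : Fact ℓ.Prime] (hp : p.Prime)
    (hp2 : p ≠ 2) (hℓp : ℓ ≠ p) (hA : A.LiesOverPrime ℓ) (hgood : ¬ (ℓ : ℤ) ∣ W.Δ)
    {ξ η : ZMod ℓ} (ht : (W.map (Int.castRingHom (ZMod ℓ))).toAffine.Nonsingular ξ η)
    (hT : p • Point.some ξ η ht = 0) (n m : ℤ) (hn : (n : ZMod ℓ) = ξ) (hm : (m : ZMod ℓ) = η) :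
    ∃ (x y : L) (h : (W.map (Int.castRingHom L)).toAffine.Nonsingular x y),
      p • Point.some x y h = 0 ∧ x - (n : L) ∈ A.nonunits ∧ y - (m : L) ∈ A.nonunits := by
  have hpL : (p : L) ≠ 0 := s41ner_prime_ne_zero hℓ.out hp hℓp hA
  have hpinv : ((p : L))⁻¹ ∈ A := s41ner_prime_inv_mem hℓ.out hp hℓp hA
  have hint := s41ner_isIntegralAt A W
  have hodd := dpf_odd_of_prime hp hp2
  -- the root mod `ℓ`
  have hroot : (ℓ : ℤ) ∣ (W.preΨ (p : ℤ)).eval n := by
    have h1 := (nsmul_eq_zero_iff_dpv_eq_zero ht hp).1 hT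
    rw [dpv_eq_eval_preΨ_of_odd ht.1 hodd, WeierstrassCurve.map_preΨ, ← hn,
      eval_intCast_map, eq_intCast] at h1
    exact (ZMod.intCast_zmod_eq_zero_iff_dvd _ ℓ).1 h1
  obtain ⟨x, y, h, hpT, hxn⟩ := s41ner_exists_lift_x hℓ.out hp hp2 hℓp hA hgood n hroot
  have hxA := s41ner_x_mem_of_torsion hint hpL hpinv h hpT
  have hyA := s41ner_y_mem_of_torsion hint hpL hpinv h hpT
  -- the equation mod `ℓ`
  have heq0 : (ℓ : ℤ) ∣ m ^ 2 + W.a₁ * n * m + W.a₃ * m
      - (n ^ 3 + W.a₂ * n ^ 2 + W.a₄ * n + W.a₆) := by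
    have h1 := (Affine.equation_iff ξ η).1 ht.1
    simp only [WeierstrassCurve.map_a₁, WeierstrassCurve.map_a₂, WeierstrassCurve.map_a₃,
      WeierstrassCurve.map_a₄, WeierstrassCurve.map_a₆, eq_intCast] at h1
    rw [← hn, ← hm] at h1
    rw [← ZMod.intCast_zmod_eq_zero_iff_dvd]
    push_cast
    linear_combination h1
  -- the equation over `L`
  have heqL := (Affine.equation_iff x y).1 h.1
  simp only [WeierstrassCurve.map_a₁, WeierstrassCurve.map_a₂, WeierstrassCurve.map_a₃,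
    WeierstrassCurve.map_a₄, WeierstrassCurve.map_a₆, eq_intCast] at heqL
  have ha₁ : ((W.a₁ : ℤ) : L) ∈ A := intCast_mem A _
  have ha₂ : ((W.a₂ : ℤ) : L) ∈ A := intCast_mem A _
  have ha₃ : ((W.a₃ : ℤ) : L) ∈ A := intCast_mem A _
  have ha₄ : ((W.a₄ : ℤ) : L) ∈ A := intCast_mem A _
  have hnA : (n : L) ∈ A := intCast_mem A _
  have hmA : (m : L) ∈ A := intCast_mem A _
  have hprod : (y - (m : L)) * (y + (m : L) + (W.a₁ : L) * x + (W.a₃ : L)) ∈ A.nonunits := by
    have hid : (y - (m : L)) * (y + (m : L) + (W.a₁ : L) * x + (W.a₃ : L)) =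
        -(((m ^ 2 + W.a₁ * n * m + W.a₃ * m
          - (n ^ 3 + W.a₂ * n ^ 2 + W.a₄ * n + W.a₆) : ℤ)) : L) +
        (x - (n : L)) * (x ^ 2 + x * n + (n : L) ^ 2 + (W.a₂ : L) * (x + n) + (W.a₄ : L)
          - (W.a₁ : L) * m) := by
      push_cast
      linear_combination heqL
    rw [hid]
    refine samered_nu_add A (samered_nu_neg A (s41ner_intCast_nonunits hA heq0))
      (samered_nu_mul_right A hxn ?_)
    refine sub_mem (add_mem (add_mem (add_mem (add_mem (pow_mem hxA 2) (mul_mem hxA hnA))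
      (pow_mem hnA 2)) (mul_mem ha₂ (add_mem hxA hnA))) ha₄) (mul_mem ha₁ hmA)
  have hf1 : y - (m : L) ∈ A := sub_mem hyA hmA
  have hf2 : y + (m : L) + (W.a₁ : L) * x + (W.a₃ : L) ∈ A :=
    add_mem (add_mem (add_mem hyA hmA) (mul_mem ha₁ hxA)) ha₃
  rcases s41ner_nonunits_of_mul A hf1 hf2 hprod with hc | hc
  · exact ⟨x, y, h, hpT, hxn, hc⟩
  · refine ⟨x, (W.map (Int.castRingHom L)).toAffine.negY x y,
      (Affine.nonsingular_neg x y).mpr h, ?_, hxn, ?_⟩
    · rw [← Point.neg_some h, smul_neg, hpT, neg_zero]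
    · have : (W.map (Int.castRingHom L)).toAffine.negY x y - (m : L) =
          -(y + (m : L) + (W.a₁ : L) * x + (W.a₃ : L)) := by
        rw [Affine.negY]
        simp only [WeierstrassCurve.map_a₁, WeierstrassCurve.map_a₃, eq_intCast]
        ring
      rw [this]
      exact samered_nu_neg A hc

/-- the same for any curve equal to `W.map (Int.castRingHom L)` -/
theorem s41ner_exists_lift' [IsAlgClosed L] (WL : Affine L) (hWL : WL = W.map (Int.castRingHom L))
    {ℓ p : ℕ} [hℓ : Fact ℓ.Prime] (hp : p.Prime)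
    (hp2 : p ≠ 2) (hℓp : ℓ ≠ p) (hA : A.LiesOverPrime ℓ) (hgood : ¬ (ℓ : ℤ) ∣ W.Δ)
    {ξ η : ZMod ℓ} (ht : (W.map (Int.castRingHom (ZMod ℓ))).toAffine.Nonsingular ξ η)
    (hT : p • Point.some ξ η ht = 0) (n m : ℤ) (hn : (n : ZMod ℓ) = ξ) (hm : (m : ZMod ℓ) = η) :
    ∃ (x y : L) (h : WL.Nonsingular x y),
      p • Point.some x y h = 0 ∧ x - (n : L) ∈ A.nonunits ∧ y - (m : L) ∈ A.nonunits := by
  subst hWL
  exact s41ner_exists_lift hp hp2 hℓp hA hgood ht hT n m hn hm

end lift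

section galois

local notation "Qb" => AlgebraicClosure ℚ

theorem s41ner_baseChange_eq (W : WeierstrassCurve ℤ) :
    (W.map (Int.castRingHom ℚ))⁄Qb = W.map (Int.castRingHom Qb) := by
  show (W.map (Int.castRingHom ℚ)).map (algebraMap ℚ Qb) = W.map (Int.castRingHom Qb)
  rw [WeierstrassCurve.map_map]
  congr 1

/-- `p ∣ ℓ + 1 - a_ℓ` means `p ∣ #W̃(𝔽_ℓ)` -/
theorem s41ner_dvd_card (W : WeierstrassCurve ℤ) {ℓ p : ℕ} [hℓ : Fact ℓ.Prime]
    (hdvd : (p : ℤ) ∣ (ℓ : ℤ) + 1 - W.apOfModel ℓ) :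
    p ∣ Nat.card (W.map (Int.castRingHom (ZMod ℓ))).toAffine.Point := by
  have h1 : W.apOfModel ℓ = (ℓ : ℤ) + 1 -
      (Nat.card (W.map (Int.castRingHom (ZMod ℓ))).toAffine.Point : ℤ) := by
    unfold WeierstrassCurve.apOfModel WeierstrassCurve.traceOfFrobenius WeierstrassCurve.card
      WeierstrassCurve.reductionMod
    rw [Nat.card_zmod]
  rw [h1] at hdvd
  have h2 : (ℓ : ℤ) + 1 - ((ℓ : ℤ) + 1 -
      (Nat.card (W.map (Int.castRingHom (ZMod ℓ))).toAffine.Point : ℤ)) =
      (Nat.card (W.map (Int.castRingHom (ZMod ℓ))).toAffine.Point : ℤ) := by ring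
  rw [h2] at hdvd
  exact_mod_cast hdvd

/-- **(Red)** if `p ∣ ℓ + 1 - a_ℓ(W)` for a good prime `ℓ ≠ p`, every element of the decomposition
group of a valuation subring over `ℓ` fixes a nonzero `p`-torsion point. -/
theorem s41ner_exists_fixed (W : WeierstrassCurve ℤ) {ℓ p : ℕ} (hℓ : ℓ.Prime) (hp : p.Prime)
    (hp2 : p ≠ 2) (hℓp : ℓ ≠ p) (hgood : W.IsGoodPrimeFor ℓ)
    (hdvd : (p : ℤ) ∣ (ℓ : ℤ) + 1 - W.apOfModel ℓ) (A : ValuationSubring Qb)
    (hA : A.LiesOverPrime ℓ) (φ : Qb ≃ₐ[ℚ] Qb) (hφ : φ ∈ A.decompositionSubgroup ℚ) :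
    ∃ x : Submodule.torsionBy ℤ ((W.map (Int.castRingHom ℚ))⁄Qb).Point p, x ≠ 0 ∧ φ • x = x := by
  have : Fact ℓ.Prime := ⟨hℓ⟩
  have : Fact p.Prime := ⟨hp⟩
  have hcard := s41ner_dvd_card W hdvd
  obtain ⟨T, hT⟩ := exists_prime_addOrderOf_dvd_card' p hcard
  have hpT : p • T = 0 := by rw [← hT]; exact addOrderOf_nsmul_eq_zero T
  cases T with
  | zero =>
    exfalso
    have h1 : addOrderOf (0 : (W.map (Int.castRingHom (ZMod ℓ))).toAffine.Point) = p := hT
    rw [addOrderOf_zero] at h1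
    exact hp.one_lt.ne h1
  | some ξ η ht =>
    set W' : Affine ℚ := W.map (Int.castRingHom ℚ) with hW'
    have hWL := s41ner_baseChange_eq W
    obtain ⟨x, y, h, hpS, hxn, hym⟩ := s41ner_exists_lift' (A := A) (W'⁄Qb) hWL hp hp2 hℓp hA
      hgood ht hpT (ξ.cast : ℤ) (η.cast : ℤ) (ZMod.intCast_zmod_cast ξ) (ZMod.intCast_zmod_cast η)
    have hpL : (p : Qb) ≠ 0 := s41ner_prime_ne_zero hℓ hp hℓp hA
    have hpinv : ((p : Qb))⁻¹ ∈ A := s41ner_prime_inv_mem hℓ hp hℓp hA
    have hint : IsIntegralAt A (W'⁄Qb) := by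
      rw [hWL]; exact s41ner_isIntegralAt A W
    have hΔ : (W'⁄Qb).Δ ∉ A.nonunits := by
      rw [hWL]; exact s41ner_Δ_not_mem hℓ hA hgood
    obtain ⟨h', e⟩ := main_map_some W' φ h
    have hsm : φ • Point.some x y h = Point.some (φ x) (φ y) h' := by
      rw [WeierstrassCurve.Affine.Point.algEquiv_smul_def]; exact e
    have hpS' : p • Point.some (φ x) (φ y) h' = 0 := by
      rw [← hsm, ← natCast_zsmul, ← WeierstrassCurve.Affine.Point.algEquiv_smul_zsmul,
        natCast_zsmul, hpS, smul_zero]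
    have hcongr : ∀ (z : Qb) (k : ℤ), z - (k : Qb) ∈ A.nonunits → φ z - z ∈ A.nonunits := by
      intro z k hz
      have h1 : φ z - z = φ (z - (k : Qb)) - (z - (k : Qb)) := by
        rw [map_sub, map_intCast]; ring
      rw [h1]
      exact samered_nu_sub A (s41ner_decomp_nonunits A hφ hz) hz
    have hfix : Point.some (φ x) (φ y) h' = Point.some x y h :=
      s41ner_eq_of_congr hint hΔ hpL hpinv h' h hpS' hpS (hcongr x _ hxn) (hcongr y _ hym)
    refine ⟨⟨Point.some x y h, ?_⟩, ?_, ?_⟩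
    · rw [Submodule.mem_torsionBy_iff, natCast_zsmul]
      exact hpS
    · intro h0
      exact Point.some_ne_zero h (congrArg Subtype.val h0)
    · apply Subtype.ext
      show φ • Point.some x y h = Point.some x y h
      rw [hsm, hfix]

end galois

end Fermat.Agent.S41
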