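import Mathlib
import Fermat.Prelude.Def_FLTPrelim_ModularRep
import Fermat.Prelude.Def_FreyPackage_LevelRaising
import Fermat.Agent.S05.VariableChangeGalois
import Fermat.Agent.S13.TorsionField
import Fermat.Agent.S56.Frob.Hom
import Fermat.Agent.S41.NE.Tors
import Fermat.Agent.S41.NE.Katz
import Fermat.Agent.S41.NE.Red

set_option autoImplicit false
set_option linter.unusedVariables false
set_option linter.unusedSectionVars false

/-!
# S41, package NE: irreducibility of `E[p]` gives a non-Eisenstein prime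

`s41ne_main` : for an elliptic curve `E/ℚ` with integral model `W`, an odd prime `p` with `E[p]`
irreducible and any finite set `Bad` of primes there is a good prime `ℓ ∉ Bad`, `ℓ ≠ p`, with
`p ∤ ℓ + 1 - a_ℓ(W)`.

Proof: `#E[p] = p²` (`Tors`); by the Katz–Clifford lemma (`Katz`) some `g ∈ G_ℚ` has no nonzero
fixed vector on `E[p]`; by Frobenius density (`S56/Frob/Hom`, helper20) there are a prime
`q ∉ Bad ∪ {p} ∪ {primes dividing Δ}` and a Frobenius element `φ` at `q` acting on `E[p]` as a power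
`g ^ a`, `a` prime to the order of the image of `g`; if `p ∣ q + 1 - a_q(W)` then `φ` fixes a nonzero
point (`Red`), hence so does `g`.
-/

namespace Fermat.Agent.S41

open WeierstrassCurve WeierstrassCurve.Affine WeierstrassCurve.Affine.Point
open Fermat.Agent.S05 Fermat.Agent.S13 Fermat.Agent.S56

local notation "Qb" => AlgebraicClosure ℚ
local notation "GQ" => (AlgebraicClosure ℚ ≃ₐ[ℚ] AlgebraicClosure ℚ)

/-- the discriminant of an integral model of an elliptic curve is nonzero -/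
theorem s41ne_Δ_ne_zero (E : WeierstrassCurve ℚ) [E.IsElliptic] {W : WeierstrassCurve ℤ}
    (hW : W.IsIntegralModelOf E) : W.Δ ≠ 0 := by
  obtain ⟨C, hC⟩ := hW
  intro h0
  have h1 : (W.map (Int.castRingHom ℚ)).Δ = 0 := by
    rw [WeierstrassCurve.map_Δ, h0, _root_.map_zero]
  rw [← hC, WeierstrassCurve.variableChange_Δ] at h1
  have h2 : E.Δ ≠ 0 := E.isUnit_Δ.ne_zero
  have h3 : ((C.u⁻¹ : ℚˣ) : ℚ) ^ 12 ≠ 0 := pow_ne_zero 12 (Units.ne_zero _)
  exact mul_ne_zero h3 h2 h1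

/-- transport of a fixed torsion point along the change of variables -/
theorem s41ne_transport (E : WeierstrassCurve ℚ) {W : WeierstrassCurve ℤ}
    (hW : W.IsIntegralModelOf E) {p : ℕ} (φ : GQ)
    (hx : ∃ x : Submodule.torsionBy ℤ ((W.map (Int.castRingHom ℚ))⁄Qb).Point p,
      x ≠ 0 ∧ φ • x = x) :
    ∃ x : Submodule.torsionBy ℤ (E⁄Qb).Point p, x ≠ 0 ∧ φ • x = x := by
  obtain ⟨C, hC⟩ := hW
  obtain ⟨⟨P, hP⟩, hP0, hPφ⟩ := hx
  have hP0' : P ≠ 0 := fun h => hP0 (Subtype.ext h)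
  have hPφ' : φ • P = P := congrArg Subtype.val hPφ
  set e := vcPointBC (K := Qb) C hC.symm with he
  refine ⟨⟨e P, ?_⟩, ?_, ?_⟩
  · rw [Submodule.mem_torsionBy_iff] at hP ⊢
    rw [← map_zsmul, hP, _root_.map_zero]
  · intro h0
    have : e P = 0 := congrArg Subtype.val h0
    exact hP0' ((map_eq_zero_iff e e.injective).1 this)
  · apply Subtype.ext
    show φ • e P = e P
    rw [he, ← vcPointBC_smul, hPφ']

theorem s41ne_main
    (E : WeierstrassCurve ℚ) [E.IsElliptic] {W : WeierstrassCurve ℤ} (hW : W.IsIntegralModelOf E)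
    {p : ℕ} (hp : p.Prime) (hp2 : p ≠ 2)
    (hirr : GaloisRepIsIrreducible (K := AlgebraicClosure ℚ) ℚ E p) (Bad : Finset ℕ) :
    ∃ ℓ : ℕ, ℓ.Prime ∧ ℓ ∉ Bad ∧ W.IsGoodPrimeFor ℓ ∧ ℓ ≠ p ∧
      ¬ (p : ℤ) ∣ (ℓ : ℤ) + 1 - W.apOfModel ℓ := by
  have : Fact p.Prime := ⟨hp⟩
  have hcard : Nat.card (Submodule.torsionBy ℤ (E⁄Qb).Point p) = p ^ 2 :=
    s41net_card_torsionBy_rat E hp hp2
  have hfin : Finite (Submodule.torsionBy ℤ (E⁄Qb).Point p) := s41nek_finite_of_card hcard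
  -- Katz: an element without nonzero fixed vector
  obtain ⟨g, hg⟩ := s41nek_exists_no_fixed (G := GQ) hcard (fun N hN => hirr.2 N hN)
  -- the permutation representation has open kernel
  let f : GQ →* Equiv.Perm (Submodule.torsionBy ℤ (E⁄Qb).Point p) :=
    MulAction.toPermHom GQ (Submodule.torsionBy ℤ (E⁄Qb).Point p)
  have hfapp : ∀ (σ : GQ) (v : Submodule.torsionBy ℤ (E⁄Qb).Point p), f σ v = σ • v :=
    fun σ v => rfl
  have hopen : IsOpen (f.ker : Set GQ) := by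
    obtain ⟨F, hF, hFfix⟩ := exists_finite_fixing_torsion E p
    have hA1 : Algebra.IsAlgebraic ℚ (AlgebraicClosure ℚ) := AlgebraicClosure.isAlgebraic ℚ
    have hFo : IsOpen (F.fixingSubgroup : Set GQ) := by
      have hF' : @FiniteDimensional ℚ F _ _ F.algebra'.toModule := hF
      exact @IntermediateField.fixingSubgroup_isOpen ℚ (AlgebraicClosure ℚ) _ _ _ F hF'
    refine Subgroup.isOpen_mono (fun σ hσ => ?_) hFo
    rw [MonoidHom.mem_ker]
    ext v
    rw [hfapp, hFfix σ hσ v]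
    rfl
  -- Frobenius density
  have hΔ : W.Δ ≠ 0 := s41ne_Δ_ne_zero E hW
  obtain ⟨q, hq, hqB, a, hacop, ⟨A, hA, φ, hφ, hfφ⟩, -⟩ :=
    fd_exists_isFrobeniusAt_hom f hopen g (Bad ∪ {p} ∪ W.Δ.natAbs.primeFactors)
  rw [Finset.mem_union, Finset.mem_union, Finset.mem_singleton] at hqB
  push Not at hqB
  obtain ⟨⟨hqBad, hqp⟩, hqΔ⟩ := hqB
  have hgood : W.IsGoodPrimeFor q := by
    intro hdvd
    apply hqΔ
    rw [Nat.mem_primeFactors]
    exact ⟨hq, Int.natCast_dvd.1 hdvd, Int.natAbs_ne_zero.2 hΔ⟩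
  refine ⟨q, hq, hqBad, hgood, hqp, ?_⟩
  intro hdvd
  obtain ⟨x, hx0, hxφ⟩ := s41ne_transport E hW φ
    (s41ner_exists_fixed W hq hp hp2 hqp hgood hdvd A hA φ hφ.mem_decompositionSubgroup)
  apply hx0
  apply hg x
  obtain ⟨m, hm⟩ := exists_pow_eq_self_of_coprime hacop
  have h1 : f φ x = x := by rw [hfapp, hxφ]
  have h2 : ∀ k : ℕ, (f φ ^ k) x = x := by
    intro k
    induction k with
    | zero => rfl
    | succ k ih => rw [pow_succ, Equiv.Perm.mul_apply, h1, ih]
  have h3 := h2 m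
  rw [hfφ, hm, hfapp] at h3
  exact h3

end Fermat.Agent.S41
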