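import Mathlib
import Fermat.Prelude.Def_FLTPrelim_Ramification
import Fermat.Prelude.Def_EllipticCurve_FrobeniusTrace
import Fermat.Prelude.Def_GaloisRep_ComplexConjugation
import Fermat.Agent.S05.Inertia

/-!
# S41, package NE, file Cyc: Galois action on roots of unity

* `s41nec_frob_root` : a Frobenius element at `q ∤ n` raises every `n`-th root of unity to the
  `q`-th power (`1 - η` is a unit at a place over `q` for every `n`-th root of unity `η ≠ 1`:
  otherwise `n = ∑_{i<n} η^i + (n - ∑ η^i) ≡ 0`);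
* `s41nec_conj_root` : complex conjugation inverts roots of unity;
* `s41nec_exists_exponent` : every `σ` acts on the `n`-th roots of unity by `x ↦ x ^ e`;
* `s41nec_pow_pred_fix` : `σ ^ (p - 1)` fixes the `p`-th roots of unity.
-/

set_option autoImplicit false
set_option linter.style.haveILetI false

noncomputable section

namespace Fermat.Agent.S41

local notation "Qb" => AlgebraicClosure ℚ
local notation "GQ" => (AlgebraicClosure ℚ ≃ₐ[ℚ] AlgebraicClosure ℚ)

/-- a root of unity has valuation one -/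
theorem s41nec_valuation_eq_one {K : Type*} [Field K] (A : ValuationSubring K) {ζ : K} {n : ℕ}
    (hn : n ≠ 0) (h : ζ ^ n = 1) : A.valuation ζ = 1 := by
  have h1 : A.valuation ζ ^ n = 1 := by rw [← map_pow, h, map_one]
  rcases lt_trichotomy (A.valuation ζ) 1 with hlt | heq | hgt
  · exact absurd h1 (ne_of_lt (pow_lt_one₀ zero_le hlt hn))
  · exact heq
  · exact absurd h1 (ne_of_gt (one_lt_pow₀ hgt hn))

/-- if `A` lies over `q ∤ n`, then `1 - η` is a unit of `A` for every `n`-th root of unity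
`η ≠ 1` -/
theorem s41nec_valuation_one_sub {K : Type*} [Field K] {q : ℕ} (hq : q.Prime)
    (A : ValuationSubring K) (hA : A.LiesOverPrime q) {n : ℕ} (hn0 : n ≠ 0) (hn : ¬ q ∣ n)
    {η : K} (hη : η ^ n = 1) (h1 : η ≠ 1) : A.valuation (1 - η) = 1 := by
  have hvη : A.valuation η = 1 := s41nec_valuation_eq_one A hn0 hη
  have hηA : η ∈ A := (A.valuation_le_one_iff η).1 hvη.le
  have hle : A.valuation (1 - η) ≤ 1 := by
    refine le_trans (A.valuation.map_sub _ _) ?_
    rw [map_one, hvη, max_self]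
  refine le_antisymm hle ?_
  by_contra hlt
  rw [not_le] at hlt
  -- the geometric sum vanishes
  have hgeom : ∑ i ∈ Finset.range n, η ^ i = 0 := by
    have h2 := geom_sum_mul η n
    rw [hη, sub_self] at h2
    rcases mul_eq_zero.1 h2 with h | h
    · exact h
    · exact absurd (sub_eq_zero.1 h) h1
  -- every `η ^ i - 1` is small
  have hsmall : ∀ i : ℕ, A.valuation (η ^ i - 1) < 1 := by
    intro i
    have h3 : η ^ i - 1 = (∑ j ∈ Finset.range i, η ^ j) * (η - 1) := (geom_sum_mul η i).symm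
    have h4 : (∑ j ∈ Finset.range i, η ^ j) ∈ A := sum_mem fun j _ => pow_mem hηA j
    rw [h3, map_mul, Valuation.map_sub_swap]
    calc A.valuation (∑ j ∈ Finset.range i, η ^ j) * A.valuation (1 - η)
        ≤ 1 * A.valuation (1 - η) := by
          gcongr
          exact (A.valuation_le_one_iff _).2 h4
      _ = A.valuation (1 - η) := one_mul _
      _ < 1 := hlt
  have hsum : A.valuation (∑ i ∈ Finset.range n, (η ^ i - 1)) < 1 :=
    Valuation.map_sum_lt A.valuation one_ne_zero fun i _ => hsmall i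
  rw [Finset.sum_sub_distrib, hgeom, Finset.sum_const, Finset.card_range, zero_sub,
    Valuation.map_neg, nsmul_one] at hsum
  have hvn : A.valuation (((n : ℤ)) : K) = 1 := by
    rw [Fermat.Agent.S05.valuation_intCast_eq_one_iff A hq hA]
    intro hdvd
    exact hn (by exact_mod_cast hdvd)
  rw [Int.cast_natCast] at hvn
  rw [hvn] at hsum
  exact lt_irrefl _ hsum

/-- two `n`-th roots of unity which are congruent modulo a place over `q ∤ n` are equal -/
theorem s41nec_root_eq_of_sub_mem {K : Type*} [Field K] {q : ℕ} (hq : q.Prime)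
    (A : ValuationSubring K) (hA : A.LiesOverPrime q) {n : ℕ} (hn0 : n ≠ 0) (hn : ¬ q ∣ n)
    {ζ ξ : K} (hζ : ζ ^ n = 1) (hξ : ξ ^ n = 1) (h : ξ - ζ ∈ A.nonunits) : ξ = ζ := by
  by_contra hne
  have hζ0 : ζ ≠ 0 := fun h => by
    rw [h, zero_pow hn0] at hζ
    exact zero_ne_one hζ
  have hvζ : A.valuation ζ = 1 := s41nec_valuation_eq_one A hn0 hζ
  have hsub : A.valuation (ξ - ζ) < 1 := (ValuationSubring.mem_nonunits_iff (A := A)).1 h
  have hηp : (ξ / ζ) ^ n = 1 := by rw [div_pow, hξ, hζ, div_one]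
  have hη1 : ξ / ζ ≠ 1 := fun h => hne ((div_eq_one_iff_eq hζ0).1 h)
  have h1 := s41nec_valuation_one_sub hq A hA hn0 hn hηp hη1
  have h2 : A.valuation (1 - ξ / ζ) = A.valuation (ξ - ζ) := by
    rw [Valuation.map_sub_swap, show ξ / ζ - 1 = (ξ - ζ) / ζ by field_simp, map_div₀, hvζ,
      div_one]
  rw [h2] at h1
  rw [h1] at hsub
  exact lt_irrefl _ hsub

/-- the Frobenius congruence on the valuation ring -/
theorem s41nec_frob_congr (A : ValuationSubring Qb) (φ : GQ) (q : ℕ) (hφ : A.IsFrobeniusAt φ q)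
    (x : Qb) (hx : x ∈ A) : φ x - x ^ q ∈ A.nonunits := by
  obtain ⟨hdec, hres⟩ := hφ
  set b : A := ⟨x, hx⟩ with hb
  have h1 := hres (IsLocalRing.residue A b)
  rw [← IsLocalRing.ResidueField.residue_smul, ← map_pow] at h1
  have h2 : (⟨φ, hdec⟩ : A.decompositionSubgroup ℚ) • b - b ^ q ∈ IsLocalRing.maximalIdeal A :=
    Ideal.Quotient.eq.mp h1
  rw [← ValuationSubring.coe_mem_nonunits_iff] at h2
  exact h2

/-- a Frobenius element at `q ∤ n` raises the `n`-th roots of unity to the `q`-th power -/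
theorem s41nec_frob_root {q : ℕ} (hq : q.Prime) (A : ValuationSubring Qb)
    (hA : A.LiesOverPrime q) {n : ℕ} (hn0 : n ≠ 0) (hn : ¬ q ∣ n) (ζ : Qb) (hζ : ζ ^ n = 1)
    (φ : GQ) (hφ : A.IsFrobeniusAt φ q) : φ ζ = ζ ^ q := by
  have hvζ : A.valuation ζ = 1 := s41nec_valuation_eq_one A hn0 hζ
  have hζA : ζ ∈ A := (A.valuation_le_one_iff ζ).1 hvζ.le
  exact s41nec_root_eq_of_sub_mem hq A hA hn0 hn
    (by rw [← pow_mul, mul_comm, pow_mul, hζ, one_pow])
    (by rw [← map_pow, hζ, map_one]) (s41nec_frob_congr A φ q hφ ζ hζA)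

/-- complex conjugation inverts the roots of unity -/
theorem s41nec_conj_root {n : ℕ} (hn0 : n ≠ 0) (ζ : Qb) (hζ : ζ ^ n = 1) :
    complexConjugation ζ = ζ⁻¹ := by
  apply complexEmbedding.injective
  show complexEmbedding (complexConjugation ζ) = complexEmbedding ζ⁻¹
  rw [complexEmbedding_complexConjugation, map_inv₀]
  have h1 : (complexEmbedding ζ) ^ n = 1 := by rw [← map_pow, hζ, map_one]
  have h2 : ‖complexEmbedding ζ‖ = 1 := Complex.norm_eq_one_of_pow_eq_one h1 hn0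
  exact (Complex.inv_eq_conj h2).symm

/-- every automorphism acts on the `n`-th roots of unity by `x ↦ x ^ e` -/
theorem s41nec_exists_exponent (n : ℕ) (hn0 : n ≠ 0) (σ : GQ) :
    ∃ e : ℕ, ∀ x : Qb, x ^ n = 1 → σ x = x ^ e := by
  haveI : NeZero n := ⟨hn0⟩
  haveI : NeZero (n : Qb) := ⟨Nat.cast_ne_zero.mpr hn0⟩
  obtain ⟨ζ, hζ⟩ := HasEnoughRootsOfUnity.exists_primitiveRoot Qb n
  have h1 : (σ ζ) ^ n = 1 := by rw [← map_pow, hζ.pow_eq_one, map_one]
  obtain ⟨e, -, he⟩ := hζ.eq_pow_of_pow_eq_one h1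
  refine ⟨e, fun x hx => ?_⟩
  obtain ⟨k, -, rfl⟩ := hζ.eq_pow_of_pow_eq_one hx
  rw [map_pow, ← he, ← pow_mul, ← pow_mul, mul_comm]

/-- the action on roots of unity is commutative -/
theorem s41nec_comm_root (n : ℕ) (hn0 : n ≠ 0) (σ τ : GQ) (x : Qb) (hx : x ^ n = 1) :
    σ (τ x) = τ (σ x) := by
  obtain ⟨e, he⟩ := s41nec_exists_exponent n hn0 σ
  obtain ⟨d, hd⟩ := s41nec_exists_exponent n hn0 τ
  have h1 : (x ^ d) ^ n = 1 := by rw [← pow_mul, mul_comm, pow_mul, hx, one_pow]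
  have h2 : (x ^ e) ^ n = 1 := by rw [← pow_mul, mul_comm, pow_mul, hx, one_pow]
  rw [hd x hx, he _ h1, he x hx, hd _ h2, ← pow_mul, ← pow_mul, mul_comm]

/-- `σ ^ (p - 1)` fixes the `p`-th roots of unity -/
theorem s41nec_pow_pred_fix {p : ℕ} (hp : p.Prime) (σ : GQ) (ζ : Qb) (hζ : IsPrimitiveRoot ζ p) :
    (σ ^ (p - 1)) ζ = ζ := by
  obtain ⟨e, he⟩ := s41nec_exists_exponent p hp.ne_zero σ
  -- iterates
  have hiter : ∀ k : ℕ, (σ ^ k) ζ = ζ ^ e ^ k := by
    intro k
    induction k with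
    | zero => simp
    | succ k ih =>
      rw [pow_succ', AlgEquiv.mul_apply, ih, map_pow, he ζ hζ.pow_eq_one, ← pow_mul, ← pow_succ']
  rw [hiter]
  -- `p ∤ e`
  have hpe : ¬ p ∣ e := by
    intro hdvd
    have h1 := he ζ hζ.pow_eq_one
    obtain ⟨m, rfl⟩ := hdvd
    rw [pow_mul, hζ.pow_eq_one, one_pow] at h1
    have h2 : ζ = 1 := by
      have := σ.injective (h1.trans (map_one σ).symm)
      exact this
    exact hζ.ne_one hp.one_lt h2
  have hfermat : e ^ (p - 1) % p = 1 := by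
    haveI : Fact p.Prime := ⟨hp⟩
    have h1 : ((e : ZMod p)) ^ (p - 1) = 1 :=
      ZMod.pow_card_sub_one_eq_one (by
        rw [Ne, ZMod.natCast_eq_zero_iff]
        exact hpe)
    have h2 : ((e ^ (p - 1) : ℕ) : ZMod p) = ((1 : ℕ) : ZMod p) := by
      push_cast
      exact h1
    have h3 := (ZMod.natCast_eq_natCast_iff' _ _ _).1 h2
    rw [h3, Nat.mod_eq_of_lt hp.one_lt]
  conv_lhs => rw [← Nat.div_add_mod (e ^ (p - 1)) p, hfermat]
  rw [pow_add, pow_mul, hζ.pow_eq_one, one_pow, one_mul, pow_one]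

/-- powers of a primitive root -/
theorem s41nec_pow_eq_pow_iff {n : ℕ} (hn0 : n ≠ 0) {μ : Qb} (hμ : IsPrimitiveRoot μ n)
    (a b : ℕ) : μ ^ a = μ ^ b ↔ a ≡ b [MOD n] := by
  have hμ0 : μ ≠ 0 := hμ.ne_zero hn0
  have h1 : orderOf (Units.mk0 μ hμ0) = n := by
    rw [← orderOf_units, Units.val_mk0, ← hμ.eq_orderOf]
  rw [← h1, ← pow_eq_pow_iff_modEq, Units.ext_iff, Units.val_pow_eq_pow_val,
    Units.val_pow_eq_pow_val, Units.val_mk0]

/-- the cyclotomic character at `μ` is trivial exactly on the stabiliser of `μ` -/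
theorem s41nec_autToPow_eq_one_iff {n : ℕ} [NeZero n] {μ : Qb} (hμ : IsPrimitiveRoot μ n)
    (g : GQ) : hμ.autToPow ℚ g = 1 ↔ g μ = μ := by
  have hn0 : n ≠ 0 := NeZero.ne n
  constructor
  · intro h
    have h1 := hμ.autToPow_spec ℚ g
    rw [h, Units.val_one, ZMod.val_one_eq_one_mod] at h1
    rw [← h1]
    conv_rhs => rw [← pow_one μ]
    rw [s41nec_pow_eq_pow_iff hn0 hμ]
    exact Nat.mod_modEq 1 n
  · intro h
    have h1 := hμ.autToPow_spec ℚ g
    rw [h] at h1
    conv_rhs at h1 => rw [← pow_one μ]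
    rw [s41nec_pow_eq_pow_iff hn0 hμ] at h1
    have h2 := (ZMod.natCast_eq_natCast_iff _ _ _).2 h1
    rw [ZMod.natCast_zmod_val, Nat.cast_one] at h2
    exact Units.ext h2

/-- equality of cyclotomic characters means equal action on the root -/
theorem s41nec_apply_eq_of_autToPow_eq {n : ℕ} [NeZero n] {μ : Qb} (hμ : IsPrimitiveRoot μ n)
    (g h : GQ) (hgh : hμ.autToPow ℚ g = hμ.autToPow ℚ h) : g μ = h μ := by
  rw [← hμ.autToPow_spec ℚ g, ← hμ.autToPow_spec ℚ h, hgh]

/-- an element inverting `x` acts on `x` through the parity of the exponent -/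
theorem s41nec_pow_apply_of_inv (σ : GQ) (x : Qb) (hx : σ x = x⁻¹) (k : ℕ) :
    (σ ^ k) x = if Even k then x else x⁻¹ := by
  induction k with
  | zero => simp
  | succ k ih =>
    rw [pow_succ', AlgEquiv.mul_apply, ih]
    by_cases hk : Even k
    · rw [if_pos hk, if_neg (by rw [Nat.even_add_one]; exact not_not.2 hk), hx]
    · rw [if_neg hk, if_pos (by rw [Nat.even_add_one]; exact hk), map_inv₀, hx, inv_inv]

end Fermat.Agent.S41
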