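import Mathlib
import Fermat.Agent.S41.NE.Katz

set_option autoImplicit false
set_option linter.unusedVariables false
set_option linter.unusedSectionVars false
set_option linter.unusedSimpArgs false

/-!
# S41, package NE, file KatzCyc: the abelian / cyclotomic complement of the Katz–Clifford lemma

`V` an `𝔽_p`-vector space with `p²` elements, `G` acting linearly and irreducibly.

* `s41nek_false_of_comm_of_pow` : the action cannot be through commuting operators of exponent
  dividing `p - 1` (discrete Fourier projectors give a common eigenvector).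
* `s41nek_false_of_cyc` : the abstract form of the cyclotomic non-Eisenstein argument:
  `H` normal with `G / H` abelian, every element of `H` fixes a nonzero vector (so `H` acts
  trivially by Katz–Clifford and the image is abelian); a set `C` of elements fixing a nonzero vector
  (the `σ` with `σ ζ_p = ζ_p⁻¹`), `c ∈ C`, a subgroup `K` with `c K ⊆ C` (the stabiliser of `ζ_p`),
  and `g ^ (p - 1) ∈ K` for all `g`: contradiction.
-/

namespace Fermat.Agent.S41

section action

variable {p : ℕ} [hp : Fact p.Prime] {V : Type*} [AddCommGroup V] [Module (ZMod p) V]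
  {G : Type*} [Group G] [DistribMulAction G V] [SMulCommClass G (ZMod p) V]

/-- sum of the `i`-th powers of the inverses of the units of `ZMod p` -/
theorem s41nek_sum_inv_pow (i : ℕ) :
    ∑ c : (ZMod p)ˣ, (((c⁻¹ : (ZMod p)ˣ) : ZMod p)) ^ i = if p - 1 ∣ i then -1 else 0 := by
  classical
  have h1 : ∑ c : (ZMod p)ˣ, (((c⁻¹ : (ZMod p)ˣ) : ZMod p)) ^ i =
      ∑ c : (ZMod p)ˣ, ((c : ZMod p)) ^ i :=
    Fintype.sum_equiv (Equiv.inv (ZMod p)ˣ) _ _ fun c => rfl
  rw [h1]
  have h2 := FiniteField.sum_pow_units (ZMod p) i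
  rw [ZMod.card] at h2
  exact h2

/-- an operator of exponent `p - 1` has an eigenvector with eigenvalue in `𝔽_pˣ` -/
theorem s41nek_exists_eigen (g : G) (hpow : ∀ v : V, g ^ (p - 1) • v = v) {v : V} (hv : v ≠ 0) :
    ∃ (c : (ZMod p)ˣ) (w : V), w ≠ 0 ∧ g • w = (c : ZMod p) • w := by
  classical
  set n := p - 1 with hn
  let P : (ZMod p)ˣ → V := fun c =>
    ∑ i ∈ Finset.range n, (((c⁻¹ : (ZMod p)ˣ) : ZMod p)) ^ i • g ^ i • v
  -- eigenvector property
  have hP : ∀ c : (ZMod p)ˣ, g • P c = (c : ZMod p) • P c := by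
    intro c
    let f : ℕ → V := fun i => ((c : ZMod p) * (((c⁻¹ : (ZMod p)ˣ) : ZMod p)) ^ i) • g ^ i • v
    have hf1 : g • P c = ∑ i ∈ Finset.range n, f (i + 1) := by
      show g • (∑ i ∈ Finset.range n, (((c⁻¹ : (ZMod p)ˣ) : ZMod p)) ^ i • g ^ i • v) = _
      rw [Finset.smul_sum]
      refine Finset.sum_congr rfl fun i _ => ?_
      show g • ((((c⁻¹ : (ZMod p)ˣ) : ZMod p)) ^ i • g ^ i • v) =
        ((c : ZMod p) * (((c⁻¹ : (ZMod p)ˣ) : ZMod p)) ^ (i + 1)) • g ^ (i + 1) • v
      have hsc : (c : ZMod p) * (((c⁻¹ : (ZMod p)ˣ) : ZMod p)) ^ (i + 1) =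
          (((c⁻¹ : (ZMod p)ˣ) : ZMod p)) ^ i := by
        have : (c : ZMod p) * (((c⁻¹ : (ZMod p)ˣ) : ZMod p)) = 1 := by
          rw [← Units.val_mul, mul_inv_cancel, Units.val_one]
        rw [pow_succ', ← mul_assoc, this, one_mul]
      have hg : g • g ^ i • v = g ^ (i + 1) • v := by
        rw [← mul_smul, ← pow_succ']
      rw [hsc, smul_comm, hg]
    have hf2 : (c : ZMod p) • P c = ∑ i ∈ Finset.range n, f i := by
      show (c : ZMod p) • (∑ i ∈ Finset.range n, (((c⁻¹ : (ZMod p)ˣ) : ZMod p)) ^ i • g ^ i • v) = _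
      rw [Finset.smul_sum]
      refine Finset.sum_congr rfl fun i _ => ?_
      show (c : ZMod p) • ((((c⁻¹ : (ZMod p)ˣ) : ZMod p)) ^ i • g ^ i • v) = _
      rw [← mul_smul]
    have hf0 : f 0 = (c : ZMod p) • v := by
      show ((c : ZMod p) * (((c⁻¹ : (ZMod p)ˣ) : ZMod p)) ^ 0) • g ^ 0 • v = _
      rw [pow_zero, pow_zero, mul_one, one_smul]
    have hfn : f n = (c : ZMod p) • v := by
      show ((c : ZMod p) * (((c⁻¹ : (ZMod p)ˣ) : ZMod p)) ^ n) • g ^ n • v = _
      have h1 : (((c⁻¹ : (ZMod p)ˣ) : ZMod p)) ^ n = 1 := by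
        rw [← Units.val_pow_eq_pow_val, hn, ZMod.units_pow_card_sub_one_eq_one, Units.val_one]
      rw [h1, mul_one, hpow]
    have h3 : ∑ i ∈ Finset.range n, f (i + 1) + f 0 = ∑ i ∈ Finset.range n, f i + f n := by
      rw [← Finset.sum_range_succ', Finset.sum_range_succ]
    rw [hf1, hf2]
    rw [hf0, hfn] at h3
    exact add_right_cancel h3
  -- the projectors sum to `-v`
  have hsum : ∑ c : (ZMod p)ˣ, P c = -v := by
    show ∑ c : (ZMod p)ˣ, ∑ i ∈ Finset.range n, (((c⁻¹ : (ZMod p)ˣ) : ZMod p)) ^ i • g ^ i • v = -v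
    rw [Finset.sum_comm]
    have h1 : ∀ i ∈ Finset.range n,
        ∑ c : (ZMod p)ˣ, (((c⁻¹ : (ZMod p)ˣ) : ZMod p)) ^ i • g ^ i • v =
          (if i = 0 then (-1 : ZMod p) else 0) • g ^ i • v := by
      intro i hi
      rw [← Finset.sum_smul, s41nek_sum_inv_pow]
      congr 1
      have hi' : i < p - 1 := Finset.mem_range.1 hi
      by_cases h0 : i = 0
      · subst h0
        simp
      · rw [if_neg h0, if_neg]
        intro hdvd
        exact absurd (Nat.le_of_dvd (Nat.pos_of_ne_zero h0) hdvd) (not_le.2 hi')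
    rw [Finset.sum_congr rfl h1]
    have hn0 : 0 ∈ Finset.range n := by
      rw [Finset.mem_range, hn]
      have := hp.out.two_le
      omega
    rw [Finset.sum_eq_single_of_mem 0 hn0]
    · simp
    · intro i _ hi0
      rw [if_neg hi0, zero_smul]
  by_contra hcon
  push Not at hcon
  have hall : ∀ c : (ZMod p)ˣ, P c = 0 := by
    intro c
    by_contra hne
    exact hcon c (P c) hne (hP c)
  rw [Finset.sum_congr rfl (fun c _ => hall c), Finset.sum_const_zero] at hsum
  exact hv (neg_eq_zero.1 hsum.symm)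

/-- commuting operators of exponent `p - 1` cannot act irreducibly on a plane -/
theorem s41nek_false_of_comm_of_pow (hcard : Nat.card V = p ^ 2)
    (hirr : ∀ N : Submodule (ZMod p) V, (∀ g : G, ∀ x ∈ N, g • x ∈ N) → N = ⊥ ∨ N = ⊤)
    (hcomm : ∀ (g h : G) (v : V), g • h • v = h • g • v)
    (hpow : ∀ (g : G) (v : V), g ^ (p - 1) • v = v) : False := by
  have hfin : Finite V := s41nek_finite_of_card hcard
  have hnt : Nontrivial V := by
    rw [← Finite.one_lt_card_iff_nontrivial, hcard]
    exact Nat.one_lt_pow two_ne_zero hp.out.one_lt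
  obtain ⟨v₀, hv₀⟩ := exists_ne (0 : V)
  -- every element acts as a scalar
  have hscal : ∀ g : G, ∃ c : ZMod p, ∀ v : V, g • v = c • v := by
    intro g
    obtain ⟨c, w, hw0, hw⟩ := s41nek_exists_eigen g (hpow g) hv₀
    refine ⟨(c : ZMod p), ?_⟩
    let E : Submodule (ZMod p) V :=
      { carrier := {v | g • v = (c : ZMod p) • v}
        add_mem' := fun {x y} hx hy => by
          show g • (x + y) = (c : ZMod p) • (x + y)
          rw [smul_add, smul_add, hx, hy]
        zero_mem' := by
          show g • (0 : V) = (c : ZMod p) • (0 : V)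
          rw [smul_zero, smul_zero]
        smul_mem' := fun a x hx => by
          show g • (a • x) = (c : ZMod p) • (a • x)
          rw [smul_comm, hx, smul_comm] }
    have hE : ∀ h : G, ∀ x ∈ E, h • x ∈ E := by
      intro h x hx
      show g • h • x = (c : ZMod p) • h • x
      rw [hcomm, hx, smul_comm]
    rcases hirr E hE with h | h
    · exfalso
      have : w ∈ E := hw
      rw [h, Submodule.mem_bot] at this
      exact hw0 this
    · intro v
      have : v ∈ E := by rw [h]; trivial
      exact this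
  exact s41nek_false_of_stable_line hcard hirr hv₀ (fun g => by
    obtain ⟨c, hc⟩ := hscal g
    exact ⟨c, hc v₀⟩)

/-- in a commuting irreducible action an element with a nonzero fixed vector acts trivially -/
theorem s41nek_trivial_of_fixed_of_comm
    (hirr : ∀ N : Submodule (ZMod p) V, (∀ g : G, ∀ x ∈ N, g • x ∈ N) → N = ⊥ ∨ N = ⊤)
    (hcomm : ∀ (g h : G) (v : V), g • h • v = h • g • v)
    (g : G) (hfix : ∃ v : V, v ≠ 0 ∧ g • v = v) : ∀ v : V, g • v = v := by
  obtain ⟨w, hw0, hw⟩ := hfix
  let E : Submodule (ZMod p) V :=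
    { carrier := {v | g • v = v}
      add_mem' := fun {x y} hx hy => by
        show g • (x + y) = x + y
        rw [smul_add, hx, hy]
      zero_mem' := smul_zero g
      smul_mem' := fun a x hx => by
        show g • (a • x) = a • x
        rw [smul_comm, hx] }
  have hE : ∀ h : G, ∀ x ∈ E, h • x ∈ E := by
    intro h x hx
    show g • h • x = h • x
    rw [hcomm, hx]
  rcases hirr E hE with h | h
  · exfalso
    have : w ∈ E := hw
    rw [h, Submodule.mem_bot] at this
    exact hw0 this
  · intro v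
    have : v ∈ E := by rw [h]; trivial
    exact this

/-- **the cyclotomic non-Eisenstein argument, abstract form.** -/
theorem s41nek_false_of_cyc (hcard : Nat.card V = p ^ 2)
    (hirr : ∀ N : Submodule (ZMod p) V, (∀ g : G, ∀ x ∈ N, g • x ∈ N) → N = ⊥ ∨ N = ⊤)
    (H : Subgroup G) [H.Normal] (hH : ∀ h ∈ H, ∃ v : V, v ≠ 0 ∧ h • v = v)
    (hab : ∀ g₁ g₂ : G, (g₂ * g₁)⁻¹ * (g₁ * g₂) ∈ H)
    (C : Set G) (hC : ∀ g ∈ C, ∃ v : V, v ≠ 0 ∧ g • v = v)
    (c : G) (hc : c ∈ C) (K : Subgroup G) (hK : ∀ g ∈ K, c * g ∈ C)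
    (hpow : ∀ g : G, g ^ (p - 1) ∈ K) : False := by
  -- `H` acts trivially, so the action is commutative
  have hHtriv := s41nek_trivial_of_forall_fixed hcard hirr H hH
  have hcomm : ∀ (g h : G) (v : V), g • h • v = h • g • v := by
    intro g h v
    have h1 := hHtriv _ (hab g h) v
    rw [mul_smul, mul_smul] at h1
    have h2 := congrArg (fun w => (h * g) • w) h1
    simp only [smul_inv_smul] at h2
    rw [mul_smul] at h2
    exact h2
  -- elements of `C` act trivially
  have hCtriv : ∀ g ∈ C, ∀ v : V, g • v = v := fun g hg =>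
    s41nek_trivial_of_fixed_of_comm hirr hcomm g (hC g hg)
  -- `K` acts trivially
  have hKtriv : ∀ g ∈ K, ∀ v : V, g • v = v := by
    intro g hg v
    have h1 := hCtriv _ (hK g hg) v
    rw [mul_smul] at h1
    have h2 := hCtriv c hc (g • v)
    rw [h2] at h1
    exact h1
  exact s41nek_false_of_comm_of_pow hcard hirr hcomm (fun g v => hKtriv _ (hpow g) v)

end action

end Fermat.Agent.S41
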