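import Mathlib
import Fermat.Agent.S41.NE.Main
import Fermat.Agent.S41.NE.KatzCyc
import Fermat.Agent.S41.NE.Cyc

set_option autoImplicit false
set_option linter.unusedVariables false
set_option linter.unusedSectionVars false
set_option linter.style.haveILetI false

/-!
# S41, package NE: a non-Eisenstein prime in prescribed cyclotomic classes

`s41ne_main_cyc` : for an elliptic curve `E/ℚ` with integral model `W`, an odd prime `p` with `E[p]`
irreducible, an integer `M ≥ 1` and any finite set `Bad` of primes there is a good prime `ℓ ∉ Bad`,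
`ℓ ≠ p`, with `ℓ ≡ 1 [MOD M]` **or** `ℓ ≡ -1 [MOD p]`, such that `p ∤ ℓ + 1 - a_ℓ(W)`.

Proof.  Suppose not.  By Frobenius density (applied to the action on `E[p] × μ_{Mp}`) every
`σ ∈ G_ℚ` which fixes `μ_M`, or which inverts `μ_p`, has a nonzero fixed vector on `E[p]`.  The
subgroup `H = G_{ℚ(μ_M)}` is normal with abelian quotient, complex conjugation `c` inverts `μ_p`,
and so does `c g` for every `g ∈ K = G_{ℚ(μ_p)} ∋ σ ^ (p - 1)`.  The group-theoretic lemma
`s41nek_false_of_cyc` (`KatzCyc`) shows that this contradicts the irreducibility of `E[p]`.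
-/

namespace Fermat.Agent.S41

open WeierstrassCurve WeierstrassCurve.Affine WeierstrassCurve.Affine.Point
open Fermat.Agent.S05 Fermat.Agent.S13 Fermat.Agent.S56
open IntermediateField

local notation "Qb" => AlgebraicClosure ℚ
local notation "GQ" => (AlgebraicClosure ℚ ≃ₐ[ℚ] AlgebraicClosure ℚ)

/-- the stabiliser of an algebraic number contains an open subgroup -/
theorem s41nec_exists_open_fixing (x : Qb) :
    ∃ U : Subgroup GQ, IsOpen (U : Set GQ) ∧ ∀ σ ∈ U, σ x = x := by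
  have hx : IsIntegral ℚ x := ((AlgebraicClosure.isAlgebraic ℚ).isAlgebraic x).isIntegral
  haveI : FiniteDimensional ℚ ℚ⟮x⟯ := IntermediateField.adjoin.finiteDimensional hx
  refine ⟨ℚ⟮x⟯.fixingSubgroup, IntermediateField.fixingSubgroup_isOpen ℚ⟮x⟯, fun σ hσ => ?_⟩
  exact (IntermediateField.mem_fixingSubgroup_iff _ σ).1 hσ x
    (IntermediateField.mem_adjoin_simple_self ℚ x)

/-- if `g • x = x` then `g ^ k • x = x` -/
theorem s41nec_pow_smul_eq {G X : Type*} [Group G] [MulAction G X] (g : G) (x : X)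
    (h : g • x = x) (k : ℕ) : g ^ k • x = x := by
  induction k with
  | zero => rw [pow_zero, one_smul]
  | succ k ih => rw [pow_succ, mul_smul, h, ih]

theorem s41ne_main_cyc
    (E : WeierstrassCurve ℚ) [E.IsElliptic] {W : WeierstrassCurve ℤ} (hW : W.IsIntegralModelOf E)
    {p : ℕ} (hp : p.Prime) (hp2 : p ≠ 2)
    (hirr : GaloisRepIsIrreducible (K := AlgebraicClosure ℚ) ℚ E p) (M : ℕ) (hM : 0 < M)
    (Bad : Finset ℕ) :
    ∃ ℓ : ℕ, ℓ.Prime ∧ ℓ ∉ Bad ∧ W.IsGoodPrimeFor ℓ ∧ ℓ ≠ p ∧ (ℓ ≡ 1 [MOD M] ∨ p ∣ ℓ + 1) ∧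
      ¬ (p : ℤ) ∣ (ℓ : ℤ) + 1 - W.apOfModel ℓ := by
  have : Fact p.Prime := ⟨hp⟩
  by_contra hcon
  push Not at hcon
  have hcard : Nat.card (Submodule.torsionBy ℤ (E⁄Qb).Point p) = p ^ 2 :=
    s41net_card_torsionBy_rat E hp hp2
  have hfin : Finite (Submodule.torsionBy ℤ (E⁄Qb).Point p) := s41nek_finite_of_card hcard
  -- the roots of unity
  have hn0 : M * p ≠ 0 := Nat.mul_ne_zero hM.ne' hp.ne_zero
  haveI : NeZero (M * p) := ⟨hn0⟩
  haveI : NeZero ((M * p : ℕ) : Qb) := ⟨Nat.cast_ne_zero.mpr hn0⟩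
  haveI : NeZero M := ⟨hM.ne'⟩
  haveI : NeZero p := ⟨hp.ne_zero⟩
  obtain ⟨ζ, hζ⟩ := HasEnoughRootsOfUnity.exists_primitiveRoot Qb (M * p)
  have hζp : IsPrimitiveRoot (ζ ^ M) p := hζ.pow (Nat.pos_of_ne_zero hn0) rfl
  have hζM : IsPrimitiveRoot (ζ ^ p) M := hζ.pow (Nat.pos_of_ne_zero hn0) (mul_comm M p)
  -- the representation on `E[p] × μ_{Mp}` has open kernel
  let f : GQ →* Equiv.Perm (Submodule.torsionBy ℤ (E⁄Qb).Point p) × (ZMod (M * p))ˣ :=
    (MulAction.toPermHom GQ (Submodule.torsionBy ℤ (E⁄Qb).Point p)).prod (hζ.autToPow ℚ)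
  have hf1 : ∀ (σ : GQ) (v : Submodule.torsionBy ℤ (E⁄Qb).Point p), (f σ).1 v = σ • v :=
    fun σ v => rfl
  have hf2 : ∀ σ : GQ, (f σ).2 = hζ.autToPow ℚ σ := fun σ => rfl
  have hopen : IsOpen (f.ker : Set GQ) := by
    obtain ⟨F, hF, hFfix⟩ := exists_finite_fixing_torsion E p
    have hA1 : Algebra.IsAlgebraic ℚ (AlgebraicClosure ℚ) := AlgebraicClosure.isAlgebraic ℚ
    have hFo : IsOpen (F.fixingSubgroup : Set GQ) := by
      have hF' : @FiniteDimensional ℚ F _ _ F.algebra'.toModule := hF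
      exact @IntermediateField.fixingSubgroup_isOpen ℚ (AlgebraicClosure ℚ) _ _ _ F hF'
    obtain ⟨U, hUo, hU⟩ := s41nec_exists_open_fixing ζ
    have hFU : IsOpen ((F.fixingSubgroup ⊓ U : Subgroup GQ) : Set GQ) := by
      rw [Subgroup.coe_inf]
      exact hFo.inter hUo
    refine Subgroup.isOpen_mono (fun σ hσ => ?_) hFU
    rw [Subgroup.mem_inf] at hσ
    rw [MonoidHom.mem_ker]
    refine Prod.ext ?_ ?_
    · ext v
      rw [hf1, hFfix σ hσ.1 v]
      rfl
    · rw [hf2]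
      exact (s41nec_autToPow_eq_one_iff hζ σ).2 (hU σ hσ.2)
  have hΔ : W.Δ ≠ 0 := s41ne_Δ_ne_zero E hW
  -- the key consequence of the negated statement
  have hkey : ∀ σ : GQ, (σ (ζ ^ p) = ζ ^ p ∨ σ (ζ ^ M) = (ζ ^ M)⁻¹) →
      ∃ v : Submodule.torsionBy ℤ (E⁄Qb).Point p, v ≠ 0 ∧ σ • v = v := by
    intro σ hσ
    obtain ⟨q, hq, hqB, a, hacop, ⟨A, hA, φ, hφ, hfφ⟩, -⟩ :=
      fd_exists_isFrobeniusAt_hom f hopen σ
        (Bad ∪ {p} ∪ W.Δ.natAbs.primeFactors ∪ M.primeFactors)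
    rw [Finset.mem_union, Finset.mem_union, Finset.mem_union, Finset.mem_singleton] at hqB
    push Not at hqB
    obtain ⟨⟨⟨hqBad, hqp⟩, hqΔ⟩, hqM⟩ := hqB
    have hgood : W.IsGoodPrimeFor q := by
      intro hdvd
      apply hqΔ
      rw [Nat.mem_primeFactors]
      exact ⟨hq, Int.natCast_dvd.1 hdvd, Int.natAbs_ne_zero.2 hΔ⟩
    have hqn : ¬ q ∣ M * p := by
      intro hdvd
      rcases (Nat.Prime.dvd_mul hq).1 hdvd with h | h
      · exact hqM (Nat.mem_primeFactors.2 ⟨hq, h, hM.ne'⟩)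
      · exact hqp ((Nat.prime_dvd_prime_iff_eq hq hp).1 h)
    -- `φ` acts as `σ ^ a`
    have hfφ' : f φ = f (σ ^ a) := by rw [hfφ, map_pow]
    have hφζ : φ ζ = (σ ^ a) ζ :=
      s41nec_apply_eq_of_autToPow_eq hζ φ (σ ^ a) (congrArg Prod.snd hfφ')
    have hφV : ∀ v : Submodule.torsionBy ℤ (E⁄Qb).Point p, φ • v = (σ ^ a) • v := fun v => by
      rw [← hf1, ← hf1, hfφ']
    have hφq : φ ζ = ζ ^ q := s41nec_frob_root hq A hA hn0 hqn ζ hζ.pow_eq_one φ hφ
    -- the congruence condition on `q`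
    have hcong : q ≡ 1 [MOD M] ∨ p ∣ q + 1 := by
      rcases hσ with hσ | hσ
      · left
        have h1 : (σ ^ a) (ζ ^ p) = ζ ^ p := by
          have := s41nec_pow_smul_eq σ (ζ ^ p) hσ a
          exact this
        have h2 : (ζ ^ p) ^ q = (ζ ^ p) ^ 1 := by
          calc (ζ ^ p) ^ q = (ζ ^ q) ^ p := pow_right_comm ζ p q
            _ = ((σ ^ a) ζ) ^ p := by rw [← hφq, hφζ]
            _ = (σ ^ a) (ζ ^ p) := (map_pow _ _ _).symm
            _ = ζ ^ p := h1
            _ = (ζ ^ p) ^ 1 := (pow_one _).symm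
        exact (s41nec_pow_eq_pow_iff hM.ne' hζM q 1).1 h2
      · right
        -- the order of `f σ` is even
        have heven : Even (orderOf (f σ)) := by
          by_contra hodd
          have h1 : f (σ ^ orderOf (f σ)) = 1 := by rw [map_pow, pow_orderOf_eq_one]
          have h2 : (σ ^ orderOf (f σ)) ζ = ζ :=
            (s41nec_autToPow_eq_one_iff hζ _).1 (congrArg Prod.snd h1)
          have h3 : (σ ^ orderOf (f σ)) (ζ ^ M) = ζ ^ M := by rw [map_pow, h2]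
          rw [s41nec_pow_apply_of_inv σ (ζ ^ M) hσ, if_neg hodd] at h3
          have h4 : (ζ ^ M) ^ 2 = 1 := by
            rw [sq]
            nth_rewrite 1 [← h3]
            exact inv_mul_cancel₀ (hζp.ne_zero hp.ne_zero)
          have h5 : p ∣ 2 := hζp.dvd_of_pow_eq_one 2 h4
          exact hp2 ((Nat.prime_dvd_prime_iff_eq hp Nat.prime_two).1 h5)
        have hodd : ¬ Even a := by
          intro ha
          exact Nat.not_coprime_of_dvd_of_dvd one_lt_two ha.two_dvd heven.two_dvd hacop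
        have h1 : (σ ^ a) (ζ ^ M) = (ζ ^ M)⁻¹ := by
          rw [s41nec_pow_apply_of_inv σ (ζ ^ M) hσ, if_neg hodd]
        have h2 : (ζ ^ M) ^ (q + 1) = 1 := by
          rw [pow_succ]
          have h3 : (ζ ^ M) ^ q = (ζ ^ M)⁻¹ := by
            calc (ζ ^ M) ^ q = (ζ ^ q) ^ M := pow_right_comm ζ M q
              _ = ((σ ^ a) ζ) ^ M := by rw [← hφq, hφζ]
              _ = (σ ^ a) (ζ ^ M) := (map_pow _ _ _).symm
              _ = (ζ ^ M)⁻¹ := h1
          rw [h3]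
          exact inv_mul_cancel₀ (hζp.ne_zero hp.ne_zero)
        exact hζp.dvd_of_pow_eq_one _ h2
    have hdvd := hcon q hq hqBad hgood hqp hcong
    obtain ⟨x, hx0, hxφ⟩ := s41ne_transport E hW φ
      (s41ner_exists_fixed W hq hp hp2 hqp hgood hdvd A hA φ hφ.mem_decompositionSubgroup)
    refine ⟨x, hx0, ?_⟩
    obtain ⟨m, hm⟩ := exists_pow_eq_self_of_coprime hacop
    have h1 : (σ ^ a) • x = x := by rw [← hφV, hxφ]
    have h2 : (σ ^ a) ^ m • x = x := s41nec_pow_smul_eq _ x h1 m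
    have h3 : f ((σ ^ a) ^ m) = f σ := by rw [map_pow, map_pow, hm]
    rw [← hf1, ← h3, hf1, h2]
  -- the group theory
  refine s41nek_false_of_cyc (G := GQ) hcard (fun N hN => hirr.2 N hN) (hζM.autToPow ℚ).ker
    (fun h hh => hkey h (Or.inl ((s41nec_autToPow_eq_one_iff hζM h).1 (MonoidHom.mem_ker.1 hh))))
    (fun g₁ g₂ => ?_) {σ : GQ | σ (ζ ^ M) = (ζ ^ M)⁻¹} (fun g hg => hkey g (Or.inr hg))
    complexConjugation (s41nec_conj_root hp.ne_zero (ζ ^ M) hζp.pow_eq_one)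
    (hζp.autToPow ℚ).ker (fun g hg => ?_) (fun g => ?_)
  · rw [MonoidHom.mem_ker, map_mul, map_inv, map_mul, map_mul,
      mul_comm (hζM.autToPow ℚ g₂), inv_mul_cancel]
  · have h1 : g (ζ ^ M) = ζ ^ M := (s41nec_autToPow_eq_one_iff hζp g).1 (MonoidHom.mem_ker.1 hg)
    show (complexConjugation * g) (ζ ^ M) = (ζ ^ M)⁻¹
    rw [AlgEquiv.mul_apply, h1]
    exact s41nec_conj_root hp.ne_zero (ζ ^ M) hζp.pow_eq_one
  · rw [MonoidHom.mem_ker, map_pow]
    exact ZMod.units_pow_card_sub_one_eq_one p _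

end Fermat.Agent.S41
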